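/-
Project FF (S19), cell [ADD] (the abstract residuation theorem `ff_SeamADD`): THE CELL SEAMS
(cell architect: helper27).  Prefix `ffa_`.  Everything is commutative algebra over the abstract
package `ff_IsPkg` of `FF/SeamsGeom.lean`; imports are Mathlib + FF/SeamsGeom (+ FF/Rank for proofs).

Vocabulary, for a commutative `O`-algebra `B` (a "base"; `𝒜_B := B ⊗[O] 𝒜`):
* `ffa_IsRelDiv B I d` : `I ⊆ 𝒜_B` is a RELATIVE EFFECTIVE DIVISOR of degree `d` (off the cusps):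
                         `𝒜_B / I` is a finite free `B`-module of rank `d`;
* `ffa_bc f`, `ffa_fibre f I` : base change of `𝒜_B` and of ideals along `f : B →ₐ[O] B'`;
* `ffa_IsNice B Ξ ξK ξκ` : `B` is a finite free reduced `O`-algebra whose generic points are the
                         `ξK t : B → Kb` and whose closed points are the `ξκ t : B → κ` (`t ∈ Ξ`
                         finite), `ξκ t` a specialisation of `ξK t`.
The seams:
* `ffa_SeamORD`  : `H = ff_symAlg PK` and `H ⊗ H` are nice (points `z ∈ M`, resp. `(x, y) ∈ M × M`);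
* `ffa_SeamT`    : [T] the tautological divisor over `H`;
* `ffa_SeamBC`   : relative divisors pull back, compatibly with fibres;
* `ffa_SeamMUL`  : products of relative divisors over a nice base;
* `ffa_SeamRES`  : [STEP 1–3] TWO-STEP RESIDUATION over a nice base: from relative divisors `I`
                   (degree `2g`), `I₀` (degree `g`) and fibrewise targets `T t ∼ I_t - I₀_t` with
                   `l(T t) = 1` in BOTH fibres, a relative divisor `DD` of degree `g` with generic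
                   fibres `T t`;
* `ffa_SeamCHAR` : [STEP 4] the elementary symmetric functions of the values of `a ∈ 𝒜` at the points
                   of the fibres of a relative divisor are (specialisations of) elements of `B`.
`FF/Add/Main.lean` (leaf [A-MAIN]): these six imply `ff_SeamADD`.
-/
import Mathlib
import Fermat.Agent.FF.SeamsGeom

set_option autoImplicit false

noncomputable section

namespace Fermat.Agent.FF

open scoped TensorProduct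

/-! ### vocabulary over a base `B` -/

section Base

variable (O : Type) [CommRing O] (𝒜 : Type) [CommRing 𝒜] [Algebra O 𝒜]
  (B : Type) [CommRing B] [Algebra O B]

/-- `I ⊆ B ⊗ 𝒜` is a relative effective divisor of degree `d` over `B`. -/
def ffa_IsRelDiv (I : Ideal (B ⊗[O] 𝒜)) (d : ℕ) : Prop :=
  Module.Finite B ((B ⊗[O] 𝒜) ⧸ I) ∧ Module.Free B ((B ⊗[O] 𝒜) ⧸ I) ∧
    Module.finrank B ((B ⊗[O] 𝒜) ⧸ I) = d

variable {O B} {B' : Type} [CommRing B'] [Algebra O B']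

/-- base change `B ⊗ 𝒜 → B' ⊗ 𝒜` along `f : B → B'` -/
def ffa_bc (f : B →ₐ[O] B') : B ⊗[O] 𝒜 →ₐ[O] B' ⊗[O] 𝒜 :=
  Algebra.TensorProduct.map f (AlgHom.id O 𝒜)

variable {𝒜}

/-- the fibre (base change) of an ideal along `f : B → B'` -/
def ffa_fibre (f : B →ₐ[O] B') (I : Ideal (B ⊗[O] 𝒜)) : Ideal (B' ⊗[O] 𝒜) :=
  I.map (ffa_bc 𝒜 f)

end Base

section Nice

variable (O : Type) [CommRing O] (Kb : Type) [Field Kb] [Algebra O Kb]
  (κ : Type) [Field κ] [Algebra O κ]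

/-- `B` is a **nice base**: finite free over `O`, its generic points `ξK t` are jointly injective
(so `B` is reduced with minimal primes among the `ker (ξK t)`), every maximal ideal is the kernel of
a closed point `ξκ t`, and `ξκ t` is a specialisation of `ξK t`. -/
structure ffa_IsNice (B : Type) [CommRing B] [Algebra O B] (Ξ : Type)
    (ξK : Ξ → B →ₐ[O] Kb) (ξκ : Ξ → B →ₐ[O] κ) : Prop where
  fin : Module.Finite O B
  free : Module.Free O B
  finΞ : Finite Ξ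
  inj : ∀ b : B, (∀ t, ξK t b = 0) → b = 0
  max : ∀ 𝔪 : Ideal B, 𝔪.IsMaximal → ∃ t, 𝔪 = RingHom.ker (ξκ t)
  spec : ∀ t b, ξK t b = 0 → ξκ t b = 0

end Nice

/-! ### the points of `H = ff_symAlg PK` and of `H ⊗ H` -/

section Points

variable {O : Type} [CommRing O] {𝒜 : Type} [CommRing 𝒜] [Algebra O 𝒜]
  {Kb : Type} [Field Kb] [Algebra O Kb] {M : Type} {g : ℕ}
  (PK : M → Fin g → 𝒜 →ₐ[O] Kb)

/-- evaluation at `z` on `H` -/
def ffa_ev (z : M) : ↥(ff_symAlg PK) →ₐ[O] Kb :=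
  (Pi.evalAlgHom O (fun _ : M => Kb) z).comp (ff_symAlg PK).val

/-- evaluation at `(x, y)` on `H ⊗ H` -/
def ffa_ev2 (p : M × M) : ↥(ff_symAlg PK) ⊗[O] ↥(ff_symAlg PK) →ₐ[O] Kb :=
  Algebra.TensorProduct.lift (ffa_ev PK p.1) (ffa_ev PK p.2) (fun _ _ => Commute.all _ _)

end Points

/-! ### the seams of the cell -/

/-- the hypotheses of `ff_SeamADD` on `H = ff_symAlg PK`, bundled. -/
structure ffa_HHyp {O : Type} [CommRing O] {𝒜 : Type} [CommRing 𝒜] [Algebra O 𝒜]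
    {Kb : Type} [Field Kb] [Algebra O Kb] {κ : Type} [Field κ] [Algebra O κ]
    {M : Type} {g : ℕ} (PK : M → Fin g → 𝒜 →ₐ[O] Kb) (Pκ : M → Fin g → 𝒜 →ₐ[O] κ)
    (Av : Subring Kb) (res : ↥Av →+* κ) : Prop where
  resO : ∀ o : O, ∃ h : algebraMap O Kb o ∈ Av, res ⟨_, h⟩ = algebraMap O κ o
  resP : ∀ z j a, ∃ h : PK z j a ∈ Av, res ⟨_, h⟩ = Pκ z j a
  fin : Module.Finite O ↥(ff_symAlg PK)
  indep : ∀ (ι : Type) [Fintype ι] (φ : ι → M → Kb), (∀ j, φ j ∈ ff_symAlg PK) →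
    LinearIndependent O φ → LinearIndependent Kb φ
  max : ∀ 𝔪 : Ideal ↥(ff_symAlg PK), 𝔪.IsMaximal → ∃ z : M, ∀ φ : ↥(ff_symAlg PK),
    φ ∈ 𝔪 ↔ ∃ c : ↥Av, (c : Kb) = (φ : M → Kb) z ∧ res c = 0

/-- **[ORD]** `H` and `H ⊗ H` are nice bases: there are closed points `evκ z : H → κ`
(`φ ↦ res (φ z)`) such that `(H; ffa_ev, evκ)` is nice with point set `M` and
`(H ⊗ H; ffa_ev2, evκ ⊗ evκ)` is nice with point set `M × M`. -/
def ffa_SeamORD : Prop :=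
  ∀ (O : Type) [CommRing O] [IsDomain O] [IsDiscreteValuationRing O]
    (𝒜 : Type) [CommRing 𝒜] [Algebra O 𝒜]
    (Kb : Type) [Field Kb] [IsAlgClosed Kb] [Algebra O Kb]
    (κ : Type) [Field κ] [IsAlgClosed κ] [Algebra O κ] (π : O),
    Irreducible π → Function.Surjective (algebraMap O κ) →
    RingHom.ker (algebraMap O κ) = Ideal.span {π} → Function.Injective (algebraMap O Kb) →
  ∀ (M : Type) [Finite M] (g : ℕ) (PK : M → Fin g → 𝒜 →ₐ[O] Kb) (Pκ : M → Fin g → 𝒜 →ₐ[O] κ)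
    (Av : Subring Kb) (res : ↥Av →+* κ), ffa_HHyp PK Pκ Av res →
    ∃ evκ : M → ↥(ff_symAlg PK) →ₐ[O] κ,
      (∀ (z : M) (φ : ↥(ff_symAlg PK)) (h : (φ : M → Kb) z ∈ Av), evκ z φ = res ⟨_, h⟩) ∧
      ffa_IsNice O Kb κ ↥(ff_symAlg PK) M (ffa_ev PK) evκ ∧
      ffa_IsNice O Kb κ (↥(ff_symAlg PK) ⊗[O] ↥(ff_symAlg PK)) (M × M) (ffa_ev2 PK)
        (fun p => Algebra.TensorProduct.lift (evκ p.1) (evκ p.2) (fun _ _ => Commute.all _ _))

/-- **[T]** the tautological divisor: there is a relative effective divisor `I_H` of degree `g`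
over `H` whose fibre at `z` is the ideal of `D_z` (in both fibres).  (`M` nonempty: otherwise `H` is
the zero ring, over which every module has `finrank` one.) -/
def ffa_SeamT : Prop :=
  ∀ (O : Type) [CommRing O] [IsDomain O] [IsDiscreteValuationRing O]
    (𝒜 : Type) [CommRing 𝒜] [Algebra O 𝒜] (C : Type) [CommRing C] [Algebra O C] (π : O)
    (Kb : Type) [Field Kb] [IsAlgClosed Kb] [Algebra O Kb]
    (κ : Type) [Field κ] [IsAlgClosed κ] [Algebra O κ]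
    (Λ : ℕ → Submodule O 𝒜) (lead : ∀ m, ↥(Λ m) →ₗ[O] C) (g n m0 c0 : ℕ),
    ff_IsPkg O 𝒜 C π Kb κ Λ lead g n m0 c0 →
  ∀ (M : Type) [Finite M] [Nonempty M] (PK : M → Fin g → 𝒜 →ₐ[O] Kb)
    (Pκ : M → Fin g → 𝒜 →ₐ[O] κ)
    (Av : Subring Kb) (res : ↥Av →+* κ), ffa_HHyp PK Pκ Av res →
  ∀ evκ : M → ↥(ff_symAlg PK) →ₐ[O] κ,
    (∀ (z : M) (φ : ↥(ff_symAlg PK)) (h : (φ : M → Kb) z ∈ Av), evκ z φ = res ⟨_, h⟩) →
    ffa_IsNice O Kb κ ↥(ff_symAlg PK) M (ffa_ev PK) evκ →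
    ∃ IH : Ideal (↥(ff_symAlg PK) ⊗[O] 𝒜), ffa_IsRelDiv O 𝒜 ↥(ff_symAlg PK) IH g ∧
      (∀ z, ffa_fibre (ffa_ev PK z) IH = ff_ptIdeal Kb (PK z)) ∧
      (∀ z, ffa_fibre (evκ z) IH = ff_ptIdeal κ (Pκ z))

/-- **[BC]** relative divisors pull back along any `f : B → B'`, with the same degree, and fibres
compose. -/
def ffa_SeamBC : Prop :=
  ∀ (O : Type) [CommRing O] (𝒜 : Type) [CommRing 𝒜] [Algebra O 𝒜]
    (B B' B'' : Type) [CommRing B] [Algebra O B] [CommRing B'] [Algebra O B'] [Nontrivial B']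
    [CommRing B''] [Algebra O B''] (f : B →ₐ[O] B') (f' : B' →ₐ[O] B'')
    (I : Ideal (B ⊗[O] 𝒜)) (d : ℕ), ffa_IsRelDiv O 𝒜 B I d →
    ffa_IsRelDiv O 𝒜 B' (ffa_fibre f I) d ∧
      ffa_fibre f' (ffa_fibre f I) = ffa_fibre (f'.comp f) I

/-- **[MUL]** over a nice base the product of two relative divisors is a relative divisor, and the
degrees add.  (Fibres of products are products of fibres: `Ideal.map_mul`.)  (`B` nontrivial: over
the zero ring every module has `finrank` one.) -/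
def ffa_SeamMUL : Prop :=
  ∀ (O : Type) [CommRing O] [IsDomain O] [IsDiscreteValuationRing O]
    (𝒜 : Type) [CommRing 𝒜] [Algebra O 𝒜] (C : Type) [CommRing C] [Algebra O C] (π : O)
    (Kb : Type) [Field Kb] [IsAlgClosed Kb] [Algebra O Kb]
    (κ : Type) [Field κ] [IsAlgClosed κ] [Algebra O κ]
    (Λ : ℕ → Submodule O 𝒜) (lead : ∀ m, ↥(Λ m) →ₗ[O] C) (g n m0 c0 : ℕ),
    ff_IsPkg O 𝒜 C π Kb κ Λ lead g n m0 c0 →
  ∀ (B : Type) [CommRing B] [Algebra O B] [Nontrivial B] (Ξ : Type) (ξK : Ξ → B →ₐ[O] Kb)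
    (ξκ : Ξ → B →ₐ[O] κ),
    ffa_IsNice O Kb κ B Ξ ξK ξκ →
  ∀ (I₁ I₂ : Ideal (B ⊗[O] 𝒜)) (d₁ d₂ : ℕ), ffa_IsRelDiv O 𝒜 B I₁ d₁ → ffa_IsRelDiv O 𝒜 B I₂ d₂ →
    ffa_IsRelDiv O 𝒜 B (I₁ * I₂) (d₁ + d₂)

/-- **[RES] two-step residuation** (STEP 1–3 of the blueprint).  Over a nice base `B`: `I`, `I₀`
relative divisors of degrees `2g`, `g`; for every point `t` ideals `TK t`, `Tκ t` of colength `g` of
the two fibres with `T t + I₀_t ∼ I_t` and `l(T t) = 1`.  Then there is a relative divisor `DD` of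
degree `g` with generic fibres `TK t`. -/
def ffa_SeamRES : Prop :=
  ∀ (O : Type) [CommRing O] [IsDomain O] [IsDiscreteValuationRing O]
    (𝒜 : Type) [CommRing 𝒜] [Algebra O 𝒜] (C : Type) [CommRing C] [Algebra O C] (π : O)
    (Kb : Type) [Field Kb] [IsAlgClosed Kb] [Algebra O Kb]
    (κ : Type) [Field κ] [IsAlgClosed κ] [Algebra O κ]
    (Λ : ℕ → Submodule O 𝒜) (lead : ∀ m, ↥(Λ m) →ₗ[O] C) (g n m0 c0 : ℕ),
    ff_IsPkg O 𝒜 C π Kb κ Λ lead g n m0 c0 →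
  ∀ (B : Type) [CommRing B] [Algebra O B] (Ξ : Type) (ξK : Ξ → B →ₐ[O] Kb) (ξκ : Ξ → B →ₐ[O] κ),
    ffa_IsNice O Kb κ B Ξ ξK ξκ →
  ∀ (I I₀ : Ideal (B ⊗[O] 𝒜)), ffa_IsRelDiv O 𝒜 B I (2 * g) → ffa_IsRelDiv O 𝒜 B I₀ g →
  ∀ (TK : Ξ → Ideal (Kb ⊗[O] 𝒜)) (Tκ : Ξ → Ideal (κ ⊗[O] 𝒜)),
    (∀ t, Module.Finite Kb ((Kb ⊗[O] 𝒜) ⧸ TK t) ∧
      Module.finrank Kb ((Kb ⊗[O] 𝒜) ⧸ TK t) = g) →
    (∀ t, Module.Finite κ ((κ ⊗[O] 𝒜) ⧸ Tκ t) ∧
      Module.finrank κ ((κ ⊗[O] 𝒜) ⧸ Tκ t) = g) →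
    (∀ t, ff_LinEq O 𝒜 C Kb Λ lead (TK t) (ffa_fibre (ξK t) I₀) (ffa_fibre (ξK t) I) ⊤) →
    (∀ t, ff_Uniq O 𝒜 C Kb Λ lead (TK t)) →
    (∀ t, ff_LinEq O 𝒜 C κ Λ lead (Tκ t) (ffa_fibre (ξκ t) I₀) (ffa_fibre (ξκ t) I) ⊤) →
    (∀ t, ff_Uniq O 𝒜 C κ Λ lead (Tκ t)) →
    ∃ DD : Ideal (B ⊗[O] 𝒜), ffa_IsRelDiv O 𝒜 B DD g ∧ ∀ t, ffa_fibre (ξK t) DD = TK t

/-- **[CHAR]** (STEP 4) for a relative divisor `DD` of degree `g` over `B` and `a ∈ 𝒜`, the
coefficients of the characteristic polynomial of `a` on the free `B`-module `(B ⊗ 𝒜)/DD` are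
elements of `B` which specialise, at every point `ξ : B → Kb` whose fibre is the ideal of `g` points
`p j`, to the elementary symmetric functions of the values `a (p j)`. -/
def ffa_SeamCHAR : Prop :=
  ∀ (O : Type) [CommRing O] (𝒜 : Type) [CommRing 𝒜] [Algebra O 𝒜]
    (Kb : Type) [Field Kb] [Algebra O Kb], IsDedekindDomain (Kb ⊗[O] 𝒜) →
  ∀ (B : Type) [CommRing B] [Algebra O B] (g : ℕ)
    (DD : Ideal (B ⊗[O] 𝒜)), ffa_IsRelDiv O 𝒜 B DD g →
  ∀ (a : 𝒜) (i : ℕ), ∃ b : B, ∀ (ξ : B →ₐ[O] Kb) (p : Fin g → 𝒜 →ₐ[O] Kb),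
    ffa_fibre ξ DD = ff_ptIdeal Kb p →
    ξ b = ((Finset.univ : Finset (Fin g)).val.map fun j => p j a).esymm i

end Fermat.Agent.FF
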