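/-
Project FF (S19), cell [ADD], leaf [A-BC]: relative effective divisors pull back along any
`f : B → B'`, with the same degree, and fibres compose.

Main tool (also used by [A-CHAR]): `ffa_bc_basis` — a `B`-basis `v` of `(B ⊗ 𝒜)/I` gives a
`B'`-basis `v'` of `(B' ⊗ 𝒜)/(fibre I)` with `v'.repr [bc a] = f ∘ v.repr [a]`.
Prefix `ffa_bc_`.
-/
import Mathlib
import Fermat.Agent.FF.Add.Seams

set_option autoImplicit false
set_option linter.unusedSectionVars false
set_option linter.style.haveILetI false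

noncomputable section

namespace Fermat.Agent.FF

open scoped TensorProduct

section BC

variable {O : Type} [CommRing O] {𝒜 : Type} [CommRing 𝒜] [Algebra O 𝒜]
  {B B' : Type} [CommRing B] [Algebra O B] [CommRing B'] [Algebra O B']
  (f : B →ₐ[O] B') (I : Ideal (B ⊗[O] 𝒜))

theorem ffa_bc_tmul (b : B) (x : 𝒜) : ffa_bc 𝒜 f (b ⊗ₜ[O] x) = f b ⊗ₜ[O] x := by
  simp [ffa_bc]

theorem ffa_bc_smul (b : B) (a : B ⊗[O] 𝒜) : ffa_bc 𝒜 f (b • a) = f b • ffa_bc 𝒜 f a := by
  induction a using TensorProduct.induction_on with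
  | zero => simp
  | tmul c x =>
    rw [TensorProduct.smul_tmul', ffa_bc_tmul, ffa_bc_tmul, TensorProduct.smul_tmul', smul_eq_mul,
      smul_eq_mul, map_mul]
  | add a₁ a₂ h₁ h₂ => rw [smul_add, map_add, h₁, h₂, map_add, smul_add]

theorem ffa_bc_mem_fibre {y : B ⊗[O] 𝒜} (hy : y ∈ I) : ffa_bc 𝒜 f y ∈ ffa_fibre f I :=
  Ideal.mem_map_of_mem _ hy

/-! ### the basis of the fibre -/

section Basis

variable {ι : Type} [Fintype ι] (v : Module.Basis ι B ((B ⊗[O] 𝒜) ⧸ I))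

/-- coordinates of `1 ⊗ x`, pushed to `B'` -/
def ffa_bc_ell : 𝒜 →ₗ[O] (ι → B') where
  toFun x := fun i => f (v.repr (Ideal.Quotient.mk I ((1 : B) ⊗ₜ[O] x)) i)
  map_add' x y := by
    funext i
    simp only [TensorProduct.tmul_add, map_add, Finsupp.coe_add, Pi.add_apply]
  map_smul' o x := by
    funext i
    have h1 : ((1 : B) ⊗ₜ[O] (o • x) : B ⊗[O] 𝒜) = algebraMap O B o • ((1 : B) ⊗ₜ[O] x) := by
      rw [TensorProduct.smul_tmul', ← TensorProduct.smul_tmul, Algebra.smul_def, mul_one,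
        smul_eq_mul, mul_one]
    have h2 : Ideal.Quotient.mk I (algebraMap O B o • ((1 : B) ⊗ₜ[O] x)) =
        algebraMap O B o • Ideal.Quotient.mk I ((1 : B) ⊗ₜ[O] x) := rfl
    simp only [RingHom.id_apply, Pi.smul_apply]
    rw [h1, h2, map_smul, Finsupp.smul_apply, smul_eq_mul, map_mul, AlgHom.commutes,
      Algebra.smul_def]

/-- the `B'`-linear coordinate map on `B' ⊗ 𝒜` -/
def ffa_bc_F : B' ⊗[O] 𝒜 →ₗ[B'] (ι → B') := LinearMap.liftBaseChange B' (ffa_bc_ell f I v)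

theorem ffa_bc_F_tmul (b' : B') (x : 𝒜) (i : ι) :
    ffa_bc_F f I v (b' ⊗ₜ[O] x) i =
      b' * f (v.repr (Ideal.Quotient.mk I ((1 : B) ⊗ₜ[O] x)) i) := by
  simp [ffa_bc_F, ffa_bc_ell]

/-- **key**: the coordinates of `bc a` are the images of the coordinates of `a`. -/
theorem ffa_bc_F_bc (a : B ⊗[O] 𝒜) (i : ι) :
    ffa_bc_F f I v (ffa_bc 𝒜 f a) i = f (v.repr (Ideal.Quotient.mk I a) i) := by
  induction a using TensorProduct.induction_on with
  | zero => simp
  | tmul b x =>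
    rw [ffa_bc_tmul, ffa_bc_F_tmul]
    have h1 : (b ⊗ₜ[O] x : B ⊗[O] 𝒜) = b • ((1 : B) ⊗ₜ[O] x) := by
      rw [TensorProduct.smul_tmul', smul_eq_mul, mul_one]
    have h2 : Ideal.Quotient.mk I (b • ((1 : B) ⊗ₜ[O] x)) =
        b • Ideal.Quotient.mk I ((1 : B) ⊗ₜ[O] x) := rfl
    rw [h1, h2, map_smul, Finsupp.smul_apply, smul_eq_mul, map_mul]
  | add a₁ a₂ h₁ h₂ =>
    rw [map_add, map_add, Pi.add_apply, h₁, h₂, map_add, map_add, Finsupp.add_apply, map_add]

/-- the coordinate map kills the fibre ideal -/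
theorem ffa_bc_F_eq_zero {z : B' ⊗[O] 𝒜} (hz : z ∈ ffa_fibre f I) : ffa_bc_F f I v z = 0 := by
  -- the ideal `N` of all `z` with `F (a' z) = 0` for all `a'`
  let N : Ideal (B' ⊗[O] 𝒜) :=
    { carrier := {z | ∀ a' : B' ⊗[O] 𝒜, ffa_bc_F f I v (a' * z) = 0}
      add_mem' := by
        intro z₁ z₂ h₁ h₂ a'
        rw [mul_add, map_add, h₁ a', h₂ a', add_zero]
      zero_mem' := by
        intro a'
        rw [mul_zero, map_zero]
      smul_mem' := by
        intro c z hz a'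
        rw [smul_eq_mul, ← mul_assoc]
        exact hz (a' * c) }
  have hIN : ffa_fibre f I ≤ N := by
    rw [ffa_fibre, Ideal.map_le_iff_le_comap]
    intro y hy
    show ∀ a' : B' ⊗[O] 𝒜, ffa_bc_F f I v (a' * ffa_bc 𝒜 f y) = 0
    intro a'
    induction a' using TensorProduct.induction_on with
    | zero => rw [zero_mul, map_zero]
    | tmul b' x =>
      have h1 : (b' ⊗ₜ[O] x : B' ⊗[O] 𝒜) = b' • ffa_bc 𝒜 f ((1 : B) ⊗ₜ[O] x) := by
        rw [ffa_bc_tmul, map_one, TensorProduct.smul_tmul', smul_eq_mul, mul_one]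
      rw [h1, smul_mul_assoc, ← map_mul, map_smul]
      funext i
      rw [Pi.smul_apply, ffa_bc_F_bc]
      have h2 : Ideal.Quotient.mk I (((1 : B) ⊗ₜ[O] x) * y) = 0 :=
        Ideal.Quotient.eq_zero_iff_mem.2 (I.mul_mem_left _ hy)
      rw [h2, map_zero, Finsupp.zero_apply, map_zero, smul_zero, Pi.zero_apply]
    | add a₁ a₂ h₁ h₂ => rw [add_mul, map_add, h₁, h₂, add_zero]
  have := hIN hz 1
  rwa [one_mul] at this

/-- **base change of a basis**: a `B`-basis `v` of `(B ⊗ 𝒜)/I` gives a `B'`-basis `v'` of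
`(B' ⊗ 𝒜)/(fibre I)` such that the coordinates of `[bc a]` are the images under `f` of the
coordinates of `[a]`. -/
theorem ffa_bc_basis :
    ∃ v' : Module.Basis ι B' ((B' ⊗[O] 𝒜) ⧸ ffa_fibre f I),
      ∀ (a : B ⊗[O] 𝒜) (i : ι),
        v'.repr (Ideal.Quotient.mk (ffa_fibre f I) (ffa_bc 𝒜 f a)) i =
          f (v.repr (Ideal.Quotient.mk I a) i) := by
  classical
  -- lifts of the basis vectors
  have hlift : ∀ i, ∃ a : B ⊗[O] 𝒜, Ideal.Quotient.mk I a = v i :=
    fun i => Ideal.Quotient.mk_surjective (v i)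
  choose α hα using hlift
  set w : ι → (B' ⊗[O] 𝒜) ⧸ ffa_fibre f I :=
    fun i => Ideal.Quotient.mk (ffa_fibre f I) (ffa_bc 𝒜 f (α i)) with hw
  have hFα : ∀ i j, ffa_bc_F f I v (ffa_bc 𝒜 f (α i)) j = if i = j then 1 else 0 := by
    intro i j
    rw [ffa_bc_F_bc, hα, Module.Basis.repr_self, Finsupp.single_apply]
    split_ifs <;> simp
  have hsmulmk : ∀ (c : B') (z : B' ⊗[O] 𝒜),
      Ideal.Quotient.mk (ffa_fibre f I) (c • z) = c • Ideal.Quotient.mk (ffa_fibre f I) z :=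
    fun c z => rfl
  -- `[bc a] = Σ f(r_i) • w_i`
  have hexp : ∀ a : B ⊗[O] 𝒜, Ideal.Quotient.mk (ffa_fibre f I) (ffa_bc 𝒜 f a) =
      ∑ i, f (v.repr (Ideal.Quotient.mk I a) i) • w i := by
    intro a
    have h1 : a - ∑ i, v.repr (Ideal.Quotient.mk I a) i • α i ∈ I := by
      rw [← Ideal.Quotient.eq_zero_iff_mem, map_sub, map_sum]
      have h2 : ∀ i, Ideal.Quotient.mk I (v.repr (Ideal.Quotient.mk I a) i • α i) =
          v.repr (Ideal.Quotient.mk I a) i • v i := by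
        intro i
        rw [← hα i]; rfl
      rw [Finset.sum_congr rfl fun i _ => h2 i, v.sum_repr, sub_self]
    have h3 := ffa_bc_mem_fibre f I h1
    rw [map_sub, map_sum] at h3
    have h4 := Ideal.Quotient.eq.2 h3
    rw [h4, map_sum]
    refine Finset.sum_congr rfl fun i _ => ?_
    rw [ffa_bc_smul, hsmulmk]
  have hli : LinearIndependent B' w := by
    rw [Fintype.linearIndependent_iff]
    intro c hc j
    have h1 : ∑ i, c i • ffa_bc 𝒜 f (α i) ∈ ffa_fibre f I := by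
      rw [← Ideal.Quotient.eq_zero_iff_mem, map_sum, ← hc]
      exact Finset.sum_congr rfl fun i _ => hsmulmk _ _
    have h2 := congrFun (ffa_bc_F_eq_zero f I v h1) j
    rw [map_sum, Finset.sum_apply, Pi.zero_apply] at h2
    have h3 : ∀ i, (ffa_bc_F f I v (c i • ffa_bc 𝒜 f (α i))) j = if i = j then c i else 0 := by
      intro i
      rw [map_smul, Pi.smul_apply, hFα, smul_eq_mul]
      split_ifs <;> simp
    rw [Finset.sum_congr rfl fun i _ => h3 i, Finset.sum_ite_eq' Finset.univ j] at h2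
    simpa using h2
  have hsp : ⊤ ≤ Submodule.span B' (Set.range w) := by
    intro q _
    obtain ⟨z, rfl⟩ := Ideal.Quotient.mk_surjective q
    induction z using TensorProduct.induction_on with
    | zero => rw [map_zero]; exact Submodule.zero_mem _
    | tmul b' x =>
      have h1 : (b' ⊗ₜ[O] x : B' ⊗[O] 𝒜) = b' • ffa_bc 𝒜 f ((1 : B) ⊗ₜ[O] x) := by
        rw [ffa_bc_tmul, map_one, TensorProduct.smul_tmul', smul_eq_mul, mul_one]
      rw [h1, hsmulmk, hexp]
      refine Submodule.smul_mem _ _ (Submodule.sum_mem _ fun i _ => ?_)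
      exact Submodule.smul_mem _ _ (Submodule.subset_span ⟨i, rfl⟩)
    | add z₁ z₂ h₁ h₂ =>
      rw [map_add]
      exact Submodule.add_mem _ (h₁ trivial) (h₂ trivial)
  refine ⟨Module.Basis.mk hli hsp, fun a i => ?_⟩
  rw [hexp a]
  have h5 : ∀ k, w k = Module.Basis.mk hli hsp k := fun k => (Module.Basis.mk_apply hli hsp k).symm
  rw [Finset.sum_congr rfl fun k _ => by rw [h5 k], Module.Basis.repr_sum_self]

end Basis

end BC

/-- **[A-BC]** relative divisors pull back, with the same degree; fibres compose. -/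
theorem ffa_seamBC : ffa_SeamBC := by
  intro O _ 𝒜 _ _ B B' B'' _ _ _ _ _ _ _ f f' I d hI
  obtain ⟨hfin, hfree, hrank⟩ := hI
  refine ⟨?_, ?_⟩
  · haveI : Nontrivial B := by
      refine ⟨⟨0, 1, fun h => ?_⟩⟩
      have := congrArg f h
      rw [map_zero, map_one] at this
      exact zero_ne_one this
    let v : Module.Basis (Fin d) B ((B ⊗[O] 𝒜) ⧸ I) :=
      Module.finBasisOfFinrankEq B ((B ⊗[O] 𝒜) ⧸ I) hrank
    obtain ⟨v', -⟩ := ffa_bc_basis f I v
    refine ⟨Module.Finite.of_basis v', Module.Free.of_basis v', ?_⟩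
    rw [Module.finrank_eq_card_basis v', Fintype.card_fin]
  · have hcomp : ∀ z : B ⊗[O] 𝒜,
        ffa_bc 𝒜 (f'.comp f) z = ffa_bc 𝒜 f' (ffa_bc 𝒜 f z) := by
      intro z
      induction z using TensorProduct.induction_on with
      | zero => simp
      | tmul b x => simp only [ffa_bc_tmul, AlgHom.comp_apply]
      | add z₁ z₂ h₁ h₂ => rw [map_add, map_add, map_add, h₁, h₂]
    show Ideal.map (ffa_bc 𝒜 f' : B' ⊗[O] 𝒜 →+* B'' ⊗[O] 𝒜)
        (Ideal.map (ffa_bc 𝒜 f : B ⊗[O] 𝒜 →+* B' ⊗[O] 𝒜) I) =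
      Ideal.map (ffa_bc 𝒜 (f'.comp f) : B ⊗[O] 𝒜 →+* B'' ⊗[O] 𝒜) I
    rw [Ideal.map_map]
    congr 1
    exact RingHom.ext fun z => (hcomp z).symm

end Fermat.Agent.FF
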