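/-
Project FF (S19), cell [ADD]: the base-change isomorphism, by name (requested by [A-RES]):
for `[Algebra B B'] [IsScalarTower O B B']` and `f := IsScalarTower.toAlgHom O B B'`,
`B' ⊗[B] ((B ⊗[O] 𝒜) ⧸ I) ≃ (B' ⊗[O] 𝒜) ⧸ ffa_fibre f I`, `b' ⊗ [a] ↦ b' • [bc a]`.
Prefix `ffa_bce_`.
-/
import Mathlib
import Fermat.Agent.FF.Add.Seams

set_option autoImplicit false
set_option linter.unusedSectionVars false
set_option linter.style.haveILetI false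

noncomputable section

namespace Fermat.Agent.FF

open scoped TensorProduct

section BCE

variable {O : Type} [CommRing O] {𝒜 : Type} [CommRing 𝒜] [Algebra O 𝒜]
  {B B' : Type} [CommRing B] [Algebra O B] [CommRing B'] [Algebra O B']
  [Algebra B B'] [IsScalarTower O B B']

variable (O 𝒜 B B') in
/-- `B' ⊗[B] (B ⊗[O] 𝒜) ≃ B' ⊗[O] 𝒜` -/
abbrev ffa_bce_cancel : B' ⊗[B] (B ⊗[O] 𝒜) ≃ₐ[B'] B' ⊗[O] 𝒜 :=
  Algebra.TensorProduct.cancelBaseChange O B B' B' 𝒜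

theorem ffa_bce_cancel_includeRight (a : B ⊗[O] 𝒜) :
    ffa_bce_cancel O 𝒜 B B' ((1 : B') ⊗ₜ[B] a) = ffa_bc 𝒜 (IsScalarTower.toAlgHom O B B') a := by
  induction a using TensorProduct.induction_on with
  | zero => simp
  | tmul b x =>
    rw [Algebra.TensorProduct.cancelBaseChange_tmul]
    simp [ffa_bc, Algebra.smul_def]
  | add a₁ a₂ h₁ h₂ => rw [TensorProduct.tmul_add, map_add, h₁, h₂, map_add]

theorem ffa_bce_map_eq (I : Ideal (B ⊗[O] 𝒜)) :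
    ffa_fibre (IsScalarTower.toAlgHom O B B') I =
      Ideal.map ((ffa_bce_cancel O 𝒜 B B' : B' ⊗[B] (B ⊗[O] 𝒜) ≃ₐ[B'] B' ⊗[O] 𝒜) :
          B' ⊗[B] (B ⊗[O] 𝒜) →+* B' ⊗[O] 𝒜)
        (Ideal.map (Algebra.TensorProduct.includeRight :
          (B ⊗[O] 𝒜) →ₐ[B] B' ⊗[B] (B ⊗[O] 𝒜)) I) := by
  apply le_antisymm
  · rw [ffa_fibre, Ideal.map_le_iff_le_comap]
    intro a ha
    rw [Ideal.mem_comap, ← ffa_bce_cancel_includeRight]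
    exact Ideal.mem_map_of_mem _ (Ideal.mem_map_of_mem _ ha)
  · rw [Ideal.map_le_iff_le_comap, Ideal.map_le_iff_le_comap]
    intro a ha
    rw [Ideal.mem_comap, Ideal.mem_comap]
    have h := ffa_bce_cancel_includeRight (O := O) (𝒜 := 𝒜) (B := B) (B' := B') a
    have h' : ((ffa_bce_cancel O 𝒜 B B' : B' ⊗[B] (B ⊗[O] 𝒜) ≃ₐ[B'] B' ⊗[O] 𝒜) :
        B' ⊗[B] (B ⊗[O] 𝒜) →+* B' ⊗[O] 𝒜)
        ((Algebra.TensorProduct.includeRight : (B ⊗[O] 𝒜) →ₐ[B] B' ⊗[B] (B ⊗[O] 𝒜)) a) =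
        ffa_bc 𝒜 (IsScalarTower.toAlgHom O B B') a := h
    rw [h']
    exact Ideal.mem_map_of_mem _ ha

/-- **the base-change isomorphism** -/
def ffa_bce_equiv (I : Ideal (B ⊗[O] 𝒜)) :
    B' ⊗[B] ((B ⊗[O] 𝒜) ⧸ I) ≃ₐ[B'] (B' ⊗[O] 𝒜) ⧸ ffa_fibre (IsScalarTower.toAlgHom O B B') I :=
  (Algebra.TensorProduct.tensorQuotientEquiv (R := B) B' (B ⊗[O] 𝒜) B' I).trans
    (Ideal.quotientEquivAlg _ _ (ffa_bce_cancel O 𝒜 B B') (ffa_bce_map_eq I))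

theorem ffa_bce_equiv_tmul (I : Ideal (B ⊗[O] 𝒜)) (b' : B') (a : B ⊗[O] 𝒜) :
    ffa_bce_equiv I (b' ⊗ₜ[B] Ideal.Quotient.mk I a) =
      b' • Ideal.Quotient.mk (ffa_fibre (IsScalarTower.toAlgHom O B B') I)
        (ffa_bc 𝒜 (IsScalarTower.toAlgHom O B B') a) := by
  have h1 : (b' ⊗ₜ[B] Ideal.Quotient.mk I a : B' ⊗[B] ((B ⊗[O] 𝒜) ⧸ I)) =
      b' • ((1 : B') ⊗ₜ[B] Ideal.Quotient.mk I a) := by
    rw [TensorProduct.smul_tmul', smul_eq_mul, mul_one]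
  rw [h1, map_smul]
  congr 1
  simp only [ffa_bce_equiv, AlgEquiv.trans_apply]
  have h2 : Algebra.TensorProduct.tensorQuotientEquiv (R := B) B' (B ⊗[O] 𝒜) B' I
      ((1 : B') ⊗ₜ[B] Ideal.Quotient.mk I a) = Ideal.Quotient.mk _ ((1 : B') ⊗ₜ[B] a) := rfl
  rw [h2]
  have h3 : Ideal.quotientEquivAlg _ _ (ffa_bce_cancel O 𝒜 B B') (ffa_bce_map_eq I)
      (Ideal.Quotient.mk _ ((1 : B') ⊗ₜ[B] a)) =
      Ideal.Quotient.mk _ (ffa_bce_cancel O 𝒜 B B' ((1 : B') ⊗ₜ[B] a)) := rfl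
  rw [h3, ffa_bce_cancel_includeRight]

/-- the linear form of the isomorphism -/
def ffa_bce_linearEquiv (I : Ideal (B ⊗[O] 𝒜)) :
    B' ⊗[B] ((B ⊗[O] 𝒜) ⧸ I) ≃ₗ[B']
      (B' ⊗[O] 𝒜) ⧸ ffa_fibre (IsScalarTower.toAlgHom O B B') I :=
  (ffa_bce_equiv I).toLinearEquiv

theorem ffa_bce_linearEquiv_tmul (I : Ideal (B ⊗[O] 𝒜)) (b' : B') (a : B ⊗[O] 𝒜) :
    ffa_bce_linearEquiv I (b' ⊗ₜ[B] Ideal.Quotient.mk I a) =
      b' • Ideal.Quotient.mk (ffa_fibre (IsScalarTower.toAlgHom O B B') I)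
        (ffa_bc 𝒜 (IsScalarTower.toAlgHom O B B') a) :=
  ffa_bce_equiv_tmul I b' a

end BCE

end Fermat.Agent.FF
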