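/-
Project FF (S19), cell [ADD], leaf [A-CHAR] (STEP 4): for a relative divisor `DD` of degree `g`
over `B` and `a ∈ 𝒜`, the coefficients of the characteristic polynomial of multiplication by
`1 ⊗ a` on the free `B`-module `(B ⊗ 𝒜)/DD` specialise, at every point `ξ : B → Kb` whose fibre is
the ideal of `g` points `p j`, to the elementary symmetric functions of the values `p j a`.

Key abstract lemma: `ffa_char_tri` — in a Dedekind `K`-algebra `R`, multiplication by `t` on
`R / ∏ ker (pt j)` has characteristic polynomial `∏ (X - pt j t)` (a triangular basis along the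
chain `J_r = ∏_{j<r} ker (pt j)`).
Prefix `ffa_char_`.
-/
import Mathlib
import Fermat.Agent.FF.Add.Seams
import Fermat.Agent.FF.Add.BC
import Fermat.Agent.FF.Dict.Quot

set_option autoImplicit false
set_option linter.unusedSectionVars false
set_option linter.style.haveILetI false

noncomputable section

namespace Fermat.Agent.FF

open scoped TensorProduct
open Polynomial

section Tri

variable {K R : Type} [Field K] [CommRing R] [IsDedekindDomain R] [Algebra K R]

/-- `I / (ker c) I` is generated over `K` by one element (no nonvanishing hypothesis). -/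
theorem ffa_char_gen (I : Ideal R) (c : R →ₐ[K] K) :
    ∃ a ∈ I, ∀ y ∈ I, ∃ k : K, y - algebraMap K R k * a ∈ RingHom.ker c * I := by
  by_cases hI : I = ⊥
  · subst hI
    refine ⟨0, Ideal.zero_mem _, fun y hy => ⟨0, ?_⟩⟩
    rw [Ideal.mem_bot] at hy
    subst hy
    simp
  · have hsurj : Function.Surjective c := fun k => ⟨algebraMap K R k, by simp⟩
    haveI : (RingHom.ker c).IsMaximal := RingHom.ker_isMaximal_of_surjective c hsurj
    obtain ⟨a, haI, -, hgen⟩ := ffd_q_exists_gen I (RingHom.ker c) hI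
    refine ⟨a, haI, fun y hy => ?_⟩
    obtain ⟨b, hb⟩ := hgen y hy
    refine ⟨c b, ?_⟩
    have h1 : b - algebraMap K R (c b) ∈ RingHom.ker c := by
      rw [RingHom.mem_ker, map_sub, AlgHom.commutes]
      simp
    have h2 : (b - algebraMap K R (c b)) * a ∈ RingHom.ker c * I := Ideal.mul_mem_mul h1 haI
    have h3 : y - algebraMap K R (c b) * a = (y - b * a) + (b - algebraMap K R (c b)) * a := by
      ring
    rw [h3]
    exact Ideal.add_mem _ hb h2

/-- **triangular lemma**: the characteristic polynomial of multiplication by `t` on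
`R / ∏ ker (pt j)`. -/
theorem ffa_char_tri {g : ℕ} (pt : Fin g → R →ₐ[K] K) (J : Ideal R)
    (hJ : J = ∏ j, RingHom.ker (pt j))
    [Module.Finite K (R ⧸ J)] (hrank : Module.finrank K (R ⧸ J) = g) (t : R) :
    (LinearMap.mulLeft K (Ideal.Quotient.mk J t)).charpoly = ∏ j, (X - C (pt j t)) := by
  classical
  -- the chain
  let P : ℕ → Ideal R := fun i => if h : i < g then RingHom.ker (pt ⟨i, h⟩) else ⊤
  let Jr : ℕ → Ideal R := fun r => ∏ i ∈ Finset.range r, P i
  have hJrS : ∀ r, Jr (r + 1) = P r * Jr r := fun r => by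
    simp only [Jr, Finset.prod_range_succ, mul_comm]
  have hJrg : Jr g = J := by
    rw [hJ]
    simp only [Jr]
    rw [← Fin.prod_univ_eq_prod_range]
    refine Finset.prod_congr rfl fun j _ => ?_
    simp [P]
  -- the generators
  have hgen : ∀ r : Fin g, ∃ a ∈ Jr r, ∀ y ∈ Jr r, ∃ k : K,
      y - algebraMap K R k * a ∈ Jr (r + 1) := by
    intro r
    obtain ⟨a, ha, h⟩ := ffa_char_gen (Jr r) (pt r)
    refine ⟨a, ha, fun y hy => ?_⟩
    obtain ⟨k, hk⟩ := h y hy
    refine ⟨k, ?_⟩
    rw [hJrS]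
    simpa [P, r.2] using hk
  choose a haJ ha using hgen
  let e : Fin g → R ⧸ J := fun r => Ideal.Quotient.mk J (a r)
  -- spanning
  have hspan : ∀ n r, r + n = g → ∀ y ∈ Jr r,
      Ideal.Quotient.mk J y ∈ Submodule.span K (e '' {s : Fin g | r ≤ s.val}) := by
    intro n
    induction n with
    | zero =>
      intro r hr y hy
      have hrg : r = g := by omega
      subst hrg
      rw [hJrg] at hy
      rw [Ideal.Quotient.eq_zero_iff_mem.mpr hy]
      exact Submodule.zero_mem _
    | succ n ih =>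
      intro r hr y hy
      have hrg : r < g := by omega
      obtain ⟨k, hk⟩ := ha ⟨r, hrg⟩ y hy
      have h1 := ih (r + 1) (by omega) _ hk
      have hmono : Submodule.span K (e '' {s : Fin g | r + 1 ≤ s.val}) ≤
          Submodule.span K (e '' {s : Fin g | r ≤ s.val}) :=
        Submodule.span_mono (Set.image_mono (fun s (hs : r + 1 ≤ s.val) =>
          show r ≤ s.val by omega))
      have h2 : Ideal.Quotient.mk J (algebraMap K R k * a ⟨r, hrg⟩) ∈
          Submodule.span K (e '' {s : Fin g | r ≤ s.val}) := by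
        have h3 : Ideal.Quotient.mk J (algebraMap K R k * a ⟨r, hrg⟩) = k • e ⟨r, hrg⟩ := by
          rw [Algebra.smul_def]
          rfl
        rw [h3]
        exact Submodule.smul_mem _ _ (Submodule.subset_span ⟨⟨r, hrg⟩, le_refl r, rfl⟩)
      have h4 : Ideal.Quotient.mk J y =
          Ideal.Quotient.mk J (y - algebraMap K R k * a ⟨r, hrg⟩) +
            Ideal.Quotient.mk J (algebraMap K R k * a ⟨r, hrg⟩) := by
        rw [← map_add]
        congr 1
        ring
      rw [h4]
      exact Submodule.add_mem _ (hmono h1) h2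
  -- the basis
  have htop : ⊤ ≤ Submodule.span K (Set.range e) := by
    intro x _
    obtain ⟨y, rfl⟩ := Ideal.Quotient.mk_surjective x
    have hy : y ∈ Jr 0 := by simp [Jr]
    exact Submodule.span_mono (Set.image_subset_range _ _) (hspan g 0 (by omega) y hy)
  have hcard : Fintype.card (Fin g) = Module.finrank K (R ⧸ J) := by
    rw [Fintype.card_fin, hrank]
  let b : Module.Basis (Fin g) K (R ⧸ J) := basisOfTopLeSpanOfCardEqFinrank e htop hcard
  have hb : ∀ j, b j = e j := fun j => by
    simp only [b, coe_basisOfTopLeSpanOfCardEqFinrank]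
  -- triangularity
  have htri : ∀ j : Fin g, ∃ w ∈ Submodule.span K (b '' {s : Fin g | j.val + 1 ≤ s.val}),
      Ideal.Quotient.mk J t * b j = pt j t • b j + w := by
    intro j
    have h1 : t - algebraMap K R (pt j t) ∈ RingHom.ker (pt j) := by
      rw [RingHom.mem_ker, map_sub, AlgHom.commutes]
      simp
    have h2 : (t - algebraMap K R (pt j t)) * a j ∈ Jr (j.val + 1) := by
      rw [hJrS]
      have : P j.val = RingHom.ker (pt j) := by simp [P]
      rw [this]
      exact Ideal.mul_mem_mul h1 (haJ j)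
    have h3 := hspan (g - (j.val + 1)) (j.val + 1) (by omega) _ h2
    have hbe : (b : Fin g → R ⧸ J) = e := funext hb
    refine ⟨Ideal.Quotient.mk J ((t - algebraMap K R (pt j t)) * a j), ?_, ?_⟩
    · rw [hbe]
      exact h3
    · rw [hb j, Algebra.smul_def]
      show Ideal.Quotient.mk J t * Ideal.Quotient.mk J (a j) =
        Ideal.Quotient.mk J (algebraMap K R (pt j t)) * Ideal.Quotient.mk J (a j) + _
      rw [← map_mul, ← map_mul, ← map_add]
      congr 1
      ring
  -- the matrix
  set M := LinearMap.toMatrix b b (LinearMap.mulLeft K (Ideal.Quotient.mk J t)) with hM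
  have hentry : ∀ i j : Fin g, i ≤ j → M i j = if i = j then pt j t else 0 := by
    intro i j hij
    obtain ⟨w, hw, hmul⟩ := htri j
    have hw0 : b.repr w i = 0 := by
      have hsub := Module.Basis.repr_support_subset_of_mem_span b _ hw
      by_contra hne
      have : i ∈ (b.repr w).support := Finsupp.mem_support_iff.mpr hne
      have h5 : j.val + 1 ≤ i.val := hsub this
      have : i.val ≤ j.val := hij
      omega
    rw [hM, LinearMap.toMatrix_apply, LinearMap.mulLeft_apply, hmul, map_add, map_smul,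
      Module.Basis.repr_self, Finsupp.add_apply, Finsupp.smul_apply, hw0, add_zero,
      Finsupp.single_apply, smul_eq_mul]
    by_cases h : i = j
    · subst h; simp
    · rw [if_neg (fun h' => h h'.symm), if_neg h, mul_zero]
  have hup : M.transpose.BlockTriangular id := by
    intro i j hji
    have hji' : j < i := hji
    rw [Matrix.transpose_apply, hentry j i (le_of_lt hji'), if_neg (ne_of_lt hji')]
  rw [← LinearMap.charpoly_toMatrix _ b, ← hM, ← Matrix.charpoly_transpose,
    Matrix.charpoly_of_isUpperTriangular _ hup]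
  refine Finset.prod_congr rfl fun j _ => ?_
  rw [Matrix.transpose_apply, hentry j j (le_refl _), if_pos rfl]

end Tri

/-! ### the coefficients of `∏ (X - c j)` -/

theorem ffa_char_coeff {K : Type} [Field K] {g : ℕ} (c : Fin g → K) (i : ℕ) (hi : i ≤ g) :
    (-1 : K) ^ i * (∏ j, (X - C (c j))).coeff (g - i) =
      ((Finset.univ : Finset (Fin g)).val.map c).esymm i := by
  set s : Multiset K := (Finset.univ : Finset (Fin g)).val.map c with hs
  have hcard : Multiset.card s = g := by simp [hs]
  have hprod : (∏ j, (X - C (c j))) = (s.map fun t => X - C t).prod := by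
    rw [hs, Multiset.map_map]
    rfl
  rw [hprod, Multiset.prod_X_sub_C_coeff s (by rw [hcard]; omega), hcard]
  have h1 : g - (g - i) = i := by omega
  rw [h1, ← mul_assoc, ← pow_add, ← two_mul, pow_mul]
  simp

theorem ffa_char_esymm_zero {K : Type} [Field K] {g : ℕ} (c : Fin g → K) (i : ℕ) (hi : g < i) :
    ((Finset.univ : Finset (Fin g)).val.map c).esymm i = 0 := by
  rw [Multiset.esymm, Multiset.powersetCard_eq_empty]
  · simp
  · simpa using hi

/-! ### the seam -/

section Seam

variable {O : Type} [CommRing O] {𝒜 : Type} [CommRing 𝒜] [Algebra O 𝒜]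
  {Kb : Type} [Field Kb] [Algebra O Kb]
  {B : Type} [CommRing B] [Algebra O B]

/-- the matrix of multiplication by `1 ⊗ a` on the fibre is the image of the matrix over `B`. -/
theorem ffa_char_matrix {g : ℕ} (DD : Ideal (B ⊗[O] 𝒜))
    (v : Module.Basis (Fin g) B ((B ⊗[O] 𝒜) ⧸ DD)) (ξ : B →ₐ[O] Kb)
    (v' : Module.Basis (Fin g) Kb ((Kb ⊗[O] 𝒜) ⧸ ffa_fibre ξ DD))
    (hv' : ∀ x i, v'.repr (Ideal.Quotient.mk (ffa_fibre ξ DD) (ffa_bc 𝒜 ξ x)) i =
      ξ (v.repr (Ideal.Quotient.mk DD x) i)) (a : 𝒜) :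
    LinearMap.toMatrix v' v' (LinearMap.mulLeft Kb
        (Ideal.Quotient.mk (ffa_fibre ξ DD) ((1 : Kb) ⊗ₜ[O] a))) =
      (LinearMap.toMatrix v v (LinearMap.mulLeft B
        (Ideal.Quotient.mk DD ((1 : B) ⊗ₜ[O] a)))).map ξ := by
  classical
  ext i j
  obtain ⟨α, hα⟩ := Ideal.Quotient.mk_surjective (v j)
  have hvj : v' j = Ideal.Quotient.mk (ffa_fibre ξ DD) (ffa_bc 𝒜 ξ α) := by
    apply v'.repr.injective
    ext l
    rw [hv', hα, Module.Basis.repr_self, Module.Basis.repr_self, Finsupp.single_apply,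
      Finsupp.single_apply]
    split_ifs <;> simp
  have h1 : ffa_bc 𝒜 ξ (((1 : B) ⊗ₜ[O] a) * α) = ((1 : Kb) ⊗ₜ[O] a) * ffa_bc 𝒜 ξ α := by
    rw [map_mul, ffa_bc_tmul, map_one]
  rw [LinearMap.toMatrix_apply, LinearMap.mulLeft_apply, hvj, ← map_mul, ← h1, hv', map_mul, hα,
    Matrix.map_apply, LinearMap.toMatrix_apply, LinearMap.mulLeft_apply]

end Seam

/-- **[A-CHAR]** -/
theorem ffa_seamCHAR : ffa_SeamCHAR := by
  intro O _ 𝒜 _ _ Kb _ _ hDed B _ _ g DD hDD a i
  obtain ⟨hfin, hfree, hrank⟩ := hDD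
  by_cases hB : Nontrivial B
  swap
  · refine ⟨0, fun ξ p _ => ?_⟩
    exact absurd ξ.toRingHom.domain_nontrivial hB
  classical
  let v : Module.Basis (Fin g) B ((B ⊗[O] 𝒜) ⧸ DD) := Module.finBasisOfFinrankEq B _ hrank
  set m := LinearMap.toMatrix v v (LinearMap.mulLeft B
    (Ideal.Quotient.mk DD ((1 : B) ⊗ₜ[O] a))) with hm
  refine ⟨if i ≤ g then (-1) ^ i * m.charpoly.coeff (g - i) else 0, fun ξ p hfib => ?_⟩
  by_cases hi : i ≤ g
  swap
  · rw [if_neg hi, map_zero, ffa_char_esymm_zero _ i (by omega)]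
  rw [if_pos hi]
  obtain ⟨v', hv'⟩ := ffa_bc_basis ξ DD v
  have hmat := ffa_char_matrix DD v ξ v' hv' a
  haveI : Module.Finite Kb ((Kb ⊗[O] 𝒜) ⧸ ffa_fibre ξ DD) := Module.Finite.of_basis v'
  have hrk : Module.finrank Kb ((Kb ⊗[O] 𝒜) ⧸ ffa_fibre ξ DD) = g := by
    rw [Module.finrank_eq_card_basis v', Fintype.card_fin]
  have htri := ffa_char_tri (fun j => ff_pt Kb (p j)) (ffa_fibre ξ DD) hfib hrk
    ((1 : Kb) ⊗ₜ[O] a)
  rw [← LinearMap.charpoly_toMatrix _ v', hmat, ← hm] at htri
  have hcm : (m.map ⇑ξ).charpoly = m.charpoly.map (ξ : B →+* Kb) :=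
    Matrix.charpoly_map m (ξ : B →+* Kb)
  rw [hcm] at htri
  have hpt : ∀ j, ff_pt Kb (p j) ((1 : Kb) ⊗ₜ[O] a) = p j a := by
    intro j
    simp [ff_pt]
  simp only [hpt] at htri
  rw [map_mul, map_pow, map_neg, map_one, ← ffa_char_coeff (fun j => p j a) i hi, ← htri,
    Polynomial.coeff_map]
  rfl

end Fermat.Agent.FF
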