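/-
Project FF (S19), cell [ADD], shared leaf [A-FIB]: basic facts on the two fibres `k ⊗[O] 𝒜`
(`k = Kb` or `κ`, algebraically closed) of an abstract package `ff_IsPkg`.  Owner: helper27.
Prefix `ffa_fib_`.

* `ffa_fib_res_surj`        : Nullstellensatz: the residue fields of a finite type algebra over an
                              algebraically closed field `k` are `k` (the hypothesis `hres` of
                              `FF/Dict/Quot.lean`);
* `ffa_fib_ker_isMaximal`   : the kernel of a `k`-point is maximal;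
* `ffa_fib_finrank_prod`    : in a Dedekind `k`-algebra which is not a field, the quotient by the
                              product of the kernels of `g` points has dimension `g`;
* `ffa_fib_ker_pt`          : the kernel of `ff_pt k p` is generated by the `1 ⊗ a - p a ⊗ 1`;
* `ffa_fib_n_ne_zero`       : in a package, `n ≠ 0`;
* `ffa_fib_notFieldK`       : in a package, the generic fibre `Kb ⊗[O] 𝒜` is not a field (this is NOT
                              a field of `ff_IsPkg`; it follows from `rank` and `notFieldκ`);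
* `ffa_fib_finrank_ptIdeal_K`, `ffa_fib_finrank_ptIdeal_κ` : `ff_ptIdeal k p` has colength `g`;
* `ffa_fib_hresK`, `ffa_fib_hresκ` : the hypothesis `hres` of `FF/Dict/Quot.lean` on both fibres.
-/
import Mathlib
import Fermat.Agent.FF.SeamsGeom
import Fermat.Agent.FF.Dict.Quot

set_option autoImplicit false
set_option linter.unusedSectionVars false

noncomputable section

namespace Fermat.Agent.FF

open scoped TensorProduct
open Module

/-! ### generalities on finite type algebras over an algebraically closed field -/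

section General

/-- **Nullstellensatz**: the residue fields of a finite type `k`-algebra, `k` algebraically closed,
are `k`. -/
theorem ffa_fib_res_surj {k R : Type*} [Field k] [IsAlgClosed k] [CommRing R] [Algebra k R]
    [Algebra.FiniteType k R] (P : Ideal R) (hP : P.IsMaximal) :
    Function.Surjective (algebraMap k (R ⧸ P)) := by
  let _ := Ideal.Quotient.field P
  have h1 : Module.Finite k (R ⧸ P) := finite_of_finite_type_of_isJacobsonRing k (R ⧸ P)
  have h2 : Algebra.IsIntegral k (R ⧸ P) := Algebra.IsIntegral.of_finite k _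
  exact (IsAlgClosed.algebraMap_bijective_of_isIntegral (k := k) (K := R ⧸ P)).2

/-- the kernel of a `k`-point is a maximal ideal -/
theorem ffa_fib_ker_isMaximal {k R : Type*} [Field k] [CommRing R] [Algebra k R]
    (q : R →ₐ[k] k) : (RingHom.ker q).IsMaximal :=
  RingHom.ker_isMaximal_of_surjective q fun c => ⟨algebraMap k R c, by simp⟩

/-- the residue field of a `k`-point is `k` -/
theorem ffa_fib_res_surj_pt {k R : Type*} [Field k] [CommRing R] [Algebra k R]
    (q : R →ₐ[k] k) : Function.Surjective (algebraMap k (R ⧸ RingHom.ker q)) := by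
  intro x
  obtain ⟨r, rfl⟩ := Ideal.Quotient.mk_surjective x
  refine ⟨q r, ?_⟩
  rw [← Ideal.Quotient.mk_algebraMap, Ideal.Quotient.eq, RingHom.mem_ker, map_sub]
  simp

/-- in a Dedekind `k`-algebra which is not a field, the quotient by the product of the kernels of
`g` points has dimension `g`. -/
theorem ffa_fib_finrank_prod {k R : Type*} [Field k] [CommRing R] [IsDedekindDomain R]
    [Algebra k R] (hnf : ¬ IsField R) :
    ∀ {g : ℕ} (q : Fin g → R →ₐ[k] k),
      Module.Finite k (R ⧸ ∏ i, RingHom.ker (q i)) ∧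
        finrank k (R ⧸ ∏ i, RingHom.ker (q i)) = g := by
  intro g
  induction g with
  | zero =>
    intro q
    have h : (∏ i, RingHom.ker (q i)) = (⊤ : Ideal R) := by
      rw [Finset.univ_eq_empty, Finset.prod_empty, Ideal.one_eq_top]
    rw [h]
    have hsub : Subsingleton (R ⧸ (⊤ : Ideal R)) := Ideal.Quotient.subsingleton_iff.mpr rfl
    exact ⟨inferInstance, finrank_zero_of_subsingleton⟩
  | succ g ih =>
    intro q
    obtain ⟨hfin, hrank⟩ := ih fun i => q i.succ
    have hmax : (RingHom.ker (q 0)).IsMaximal := ffa_fib_ker_isMaximal (q 0)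
    have hne : (∏ i : Fin g, RingHom.ker (q i.succ)) ≠ ⊥ := by
      rw [← Ideal.zero_eq_bot, Finset.prod_ne_zero_iff]
      intro i _
      have := ffa_fib_ker_isMaximal (q i.succ)
      exact Ring.ne_bot_of_isMaximal_of_not_isField this hnf
    obtain ⟨h1, h2⟩ := ffd_q_step (K := k) (∏ i : Fin g, RingHom.ker (q i.succ))
      (RingHom.ker (q 0)) hne (ffa_fib_res_surj_pt (q 0))
    rw [Fin.prod_univ_succ]
    exact ⟨h1, by rw [h2, hrank]⟩

end General

/-! ### the kernel of a point of a fibre -/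

section Pt

variable {O : Type} [CommRing O] {𝒜 : Type} [CommRing 𝒜] [Algebra O 𝒜]
  (k : Type) [Field k] [Algebra O k]

theorem ffa_fib_pt_tmul (p : 𝒜 →ₐ[O] k) (c : k) (a : 𝒜) : ff_pt k p (c ⊗ₜ[O] a) = c * p a := by
  simp [ff_pt]

/-- the kernel of the point `ff_pt k p` is generated by the `1 ⊗ a - p a ⊗ 1`. -/
theorem ffa_fib_ker_pt (p : 𝒜 →ₐ[O] k) :
    RingHom.ker (ff_pt k p) =
      Ideal.span (Set.range fun a : 𝒜 => (1 : k) ⊗ₜ[O] a - p a ⊗ₜ[O] (1 : 𝒜)) := by
  set S : Ideal (k ⊗[O] 𝒜) :=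
    Ideal.span (Set.range fun a : 𝒜 => (1 : k) ⊗ₜ[O] a - p a ⊗ₜ[O] (1 : 𝒜)) with hS
  apply le_antisymm
  · have key : ∀ u : k ⊗[O] 𝒜, u - (ff_pt k p u) ⊗ₜ[O] (1 : 𝒜) ∈ S := by
      intro u
      induction u using TensorProduct.induction_on with
      | zero => simp
      | tmul c a =>
        have h1 : c ⊗ₜ[O] a - (ff_pt k p (c ⊗ₜ[O] a)) ⊗ₜ[O] (1 : 𝒜) =
            (c ⊗ₜ[O] (1 : 𝒜)) * ((1 : k) ⊗ₜ[O] a - p a ⊗ₜ[O] (1 : 𝒜)) := by
          rw [ffa_fib_pt_tmul, mul_sub, Algebra.TensorProduct.tmul_mul_tmul,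
            Algebra.TensorProduct.tmul_mul_tmul, mul_one, one_mul, mul_one]
        rw [h1]
        exact Ideal.mul_mem_left _ _ (Ideal.subset_span ⟨a, rfl⟩)
      | add x y hx hy =>
        have h1 : x + y - (ff_pt k p (x + y)) ⊗ₜ[O] (1 : 𝒜) =
            (x - (ff_pt k p x) ⊗ₜ[O] (1 : 𝒜)) + (y - (ff_pt k p y) ⊗ₜ[O] (1 : 𝒜)) := by
          rw [map_add, TensorProduct.add_tmul]; ring
        rw [h1]
        exact Ideal.add_mem _ hx hy
    intro u hu
    have h := key u
    rw [RingHom.mem_ker] at hu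
    rw [hu, TensorProduct.zero_tmul, sub_zero] at h
    exact h
  · rw [hS, Ideal.span_le]
    rintro _ ⟨a, rfl⟩
    rw [SetLike.mem_coe, RingHom.mem_ker, map_sub, ffa_fib_pt_tmul, ffa_fib_pt_tmul]
    simp

end Pt

/-! ### the fibres of a package -/

section Pkg

variable {O : Type} [CommRing O] [IsDomain O] [IsDiscreteValuationRing O]
  {𝒜 : Type} [CommRing 𝒜] [Algebra O 𝒜] {C : Type} [CommRing C] [Algebra O C] {π : O}
  {Kb : Type} [Field Kb] [IsAlgClosed Kb] [Algebra O Kb]
  {κ : Type} [Field κ] [IsAlgClosed κ] [Algebra O κ]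
  {Λ : ℕ → Submodule O 𝒜} {lead : ∀ m, ↥(Λ m) →ₗ[O] C} {g n m0 c0 : ℕ}

/-- the chart of a package is a torsion-free `O`-module -/
theorem ffa_fib_isTorsionFree (P : ff_IsPkg O 𝒜 C π Kb κ Λ lead g n m0 c0) :
    Module.IsTorsionFree O 𝒜 := by
  apply Module.IsTorsionFree.of_smul_eq_zero
  intro r a hra
  by_cases hr : r = 0
  · exact Or.inl hr
  right
  obtain ⟨k, u, rfl⟩ := IsDiscreteValuationRing.eq_unit_mul_pow_irreducible hr P.irr
  have hpow : ∀ (k : ℕ) (a : 𝒜), π ^ k • a = 0 → a = 0 := by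
    intro k
    induction k with
    | zero => intro a h; simpa using h
    | succ k ih =>
      intro a h
      rw [pow_succ, mul_smul] at h
      exact P.tf a (ih _ h)
  apply hpow k
  have h1 : ((u⁻¹ : Oˣ) : O) • ((u : O) * π ^ k) • a = 0 := by rw [hra, smul_zero]
  rwa [← mul_smul, ← mul_assoc, Units.inv_mul, one_mul] at h1

/-- in a package, `n ≠ 0` -/
theorem ffa_fib_n_ne_zero (P : ff_IsPkg O 𝒜 C π Kb κ Λ lead g n m0 c0) : n ≠ 0 := by
  intro hn
  have hCfin := P.Cfin
  have hCfree := P.Cfree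
  have hC : Subsingleton C := by
    have h0 : finrank O C = 0 := by rw [P.Crank, hn]
    exact Module.finrank_zero_iff.mp h0
  have hstep : ∀ m, Λ (m + 1) ≤ Λ m := fun m x hx =>
    (P.lead_ker m ⟨x, hx⟩).mp (Subsingleton.elim _ _)
  have hall : ∀ m, Λ m ≤ Λ 0 := by
    intro m
    induction m with
    | zero => exact le_rfl
    | succ m ih => exact (hstep m).trans ih
  have hconst : ∀ a : 𝒜, ∃ o : O, a = algebraMap O 𝒜 o := by
    intro a
    obtain ⟨m, hm⟩ := P.exh a
    exact P.zero_const a (hall m hm)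
  apply P.notFieldκ
  have hded := P.dedκ
  have hel : ∀ u : κ ⊗[O] 𝒜, ∃ c : κ, u = c ⊗ₜ[O] (1 : 𝒜) := by
    intro u
    induction u using TensorProduct.induction_on with
    | zero => exact ⟨0, by simp⟩
    | tmul c a =>
      obtain ⟨o, rfl⟩ := hconst a
      refine ⟨o • c, ?_⟩
      rw [Algebra.algebraMap_eq_smul_one, TensorProduct.tmul_smul, TensorProduct.smul_tmul']
    | add x y hx hy =>
      obtain ⟨c, rfl⟩ := hx
      obtain ⟨d, rfl⟩ := hy
      exact ⟨c + d, by rw [TensorProduct.add_tmul]⟩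
  refine ⟨exists_pair_ne _, mul_comm, ?_⟩
  intro u hu
  obtain ⟨c, rfl⟩ := hel u
  have hc : c ≠ 0 := by
    rintro rfl
    exact hu (by simp)
  exact ⟨c⁻¹ ⊗ₜ[O] (1 : 𝒜), by
    rw [Algebra.TensorProduct.tmul_mul_tmul, mul_inv_cancel₀ hc, mul_one,
      Algebra.TensorProduct.one_def]⟩

/-- **the generic fibre of a package is not a field.** -/
theorem ffa_fib_notFieldK (P : ff_IsPkg O 𝒜 C π Kb κ Λ lead g n m0 c0) :
    ¬ IsField (Kb ⊗[O] 𝒜) := by
  intro hF
  have hn := ffa_fib_n_ne_zero P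
  have hft := P.ft
  have hdom : IsDomain (Kb ⊗[O] 𝒜) := by have := P.dedK; infer_instance
  have hsurj : Function.Surjective (algebraMap Kb (Kb ⊗[O] 𝒜)) := by
    have h1 : Module.Finite Kb (Kb ⊗[O] 𝒜) := by
      let _ := hF.toField
      exact finite_of_finite_type_of_isJacobsonRing Kb (Kb ⊗[O] 𝒜)
    have h2 : Algebra.IsIntegral Kb (Kb ⊗[O] 𝒜) := Algebra.IsIntegral.of_finite Kb _
    exact (IsAlgClosed.algebraMap_bijective_of_isIntegral (k := Kb) (K := Kb ⊗[O] 𝒜)).2
  have hfinK : Module.Finite Kb (Kb ⊗[O] 𝒜) :=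
    Module.Finite.of_surjective (Algebra.linearMap Kb (Kb ⊗[O] 𝒜)) hsurj
  have hdim : finrank Kb (Kb ⊗[O] 𝒜) ≤ 1 := by
    have h := LinearMap.finrank_range_le (Algebra.linearMap Kb (Kb ⊗[O] 𝒜))
    rw [LinearMap.range_eq_top.mpr hsurj, finrank_top, Module.finrank_self] at h
    exact h
  have htf : Module.IsTorsionFree O 𝒜 := ffa_fib_isTorsionFree P
  have hKtf : Module.IsTorsionFree O Kb := Module.isTorsionFree_iff_algebraMap_injective.mpr P.inj
  have hle1 : ∀ m, finrank O ↥(Λ m) ≤ 1 := by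
    intro m
    have hfin : Module.Finite O ↥(Λ m) := Module.Finite.iff_fg.mpr (P.fg m)
    have hinj : Function.Injective (ff_incl O 𝒜 Kb Λ m) :=
      Module.Flat.lTensor_preserves_injective_linearMap _ Subtype.val_injective
    have h1 : finrank Kb (Kb ⊗[O] ↥(Λ m)) = finrank O ↥(Λ m) := Module.finrank_baseChange
    have h3 := LinearMap.finrank_le_finrank_of_injective hinj
    omega
  have r1 := P.rank m0 le_rfl
  have r2 := P.rank (m0 + 2) (by omega)
  have e1 := hle1 m0
  have e2 := hle1 (m0 + 2)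
  have hmul : (m0 + 2) * n = m0 * n + 2 * n := by ring
  have hn1 : 1 ≤ n := Nat.one_le_iff_ne_zero.mpr hn
  omega

/-- the hypothesis `hres` of `FF/Dict/Quot.lean` on the generic fibre -/
theorem ffa_fib_hresK (P : ff_IsPkg O 𝒜 C π Kb κ Λ lead g n m0 c0) :
    ∀ Q : Ideal (Kb ⊗[O] 𝒜), Q.IsMaximal → Q ≠ ⊥ →
      Function.Surjective (algebraMap Kb ((Kb ⊗[O] 𝒜) ⧸ Q)) := by
  have hft := P.ft
  exact fun Q hQ _ => ffa_fib_res_surj Q hQ

/-- the hypothesis `hres` of `FF/Dict/Quot.lean` on the special fibre -/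
theorem ffa_fib_hresκ (P : ff_IsPkg O 𝒜 C π Kb κ Λ lead g n m0 c0) :
    ∀ Q : Ideal (κ ⊗[O] 𝒜), Q.IsMaximal → Q ≠ ⊥ →
      Function.Surjective (algebraMap κ ((κ ⊗[O] 𝒜) ⧸ Q)) := by
  have hft := P.ft
  exact fun Q hQ _ => ffa_fib_res_surj Q hQ

/-- `ff_ptIdeal Kb p` has colength `g'` -/
theorem ffa_fib_finrank_ptIdeal_K (P : ff_IsPkg O 𝒜 C π Kb κ Λ lead g n m0 c0) {g' : ℕ}
    (p : Fin g' → 𝒜 →ₐ[O] Kb) :
    Module.Finite Kb ((Kb ⊗[O] 𝒜) ⧸ ff_ptIdeal Kb p) ∧
      finrank Kb ((Kb ⊗[O] 𝒜) ⧸ ff_ptIdeal Kb p) = g' := by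
  have := P.dedK
  exact ffa_fib_finrank_prod (ffa_fib_notFieldK P) fun i => ff_pt Kb (p i)

/-- `ff_ptIdeal κ p` has colength `g'` -/
theorem ffa_fib_finrank_ptIdeal_κ (P : ff_IsPkg O 𝒜 C π Kb κ Λ lead g n m0 c0) {g' : ℕ}
    (p : Fin g' → 𝒜 →ₐ[O] κ) :
    Module.Finite κ ((κ ⊗[O] 𝒜) ⧸ ff_ptIdeal κ p) ∧
      finrank κ ((κ ⊗[O] 𝒜) ⧸ ff_ptIdeal κ p) = g' := by
  have := P.dedκ
  exact ffa_fib_finrank_prod P.notFieldκ fun i => ff_pt κ (p i)

end Pkg

end Fermat.Agent.FF
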