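/-
Project FF (S19), cell [ADD], leaf [A-MAIN]: the six seams of `FF/Add/Seams.lean` imply the abstract
residuation theorem `ff_SeamADD`.  Owner: helper27.  Prefix `ffa_main_`.

Route: `H := ff_symAlg PK`, `B := H ⊗ H` (nice by [ORD]); `IH` the tautological divisor over `H`
([T]); `I₁, I₂` its pull-backs along the two inclusions `H → B` ([BC]); `I := I₁ I₂` ([MUL]);
`I₀ := ∏ ker (section defined by P0 j)` the constant divisor `E₀` ([MUL]); two-step residuation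
([RES]) with targets `T (x, y) := ff_ptIdeal (P (x + y))` gives `DD` over `B` with generic fibres the
ideals of the `D_{x+y}`; [CHAR] gives `b ∈ B` with `b (x, y) = e_i(a(D_{x+y}))`; finally write
`b = Σ φ_j ⊗ ψ_j`.
-/
import Mathlib
import Fermat.Agent.FF.Add.Seams
import Fermat.Agent.FF.Add.Fibre

set_option autoImplicit false
set_option linter.unusedSectionVars false

noncomputable section

namespace Fermat.Agent.FF

open scoped TensorProduct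
open Module

/-! ### decomposing an element of `H ⊗ H` -/

section Decomp

variable {O : Type} [CommRing O] {𝒜 : Type} [CommRing 𝒜] [Algebra O 𝒜]
  {Kb : Type} [Field Kb] [Algebra O Kb] {M : Type} {g : ℕ}
  (PK : M → Fin g → 𝒜 →ₐ[O] Kb)

theorem ffa_main_ev2_tmul (p : M × M) (φ ψ : ↥(ff_symAlg PK)) :
    ffa_ev2 PK p (φ ⊗ₜ[O] ψ) = (φ : M → Kb) p.1 * (ψ : M → Kb) p.2 := by
  simp [ffa_ev2, ffa_ev]

theorem ffa_main_decomp (b : ↥(ff_symAlg PK) ⊗[O] ↥(ff_symAlg PK)) :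
    ∃ (r : ℕ) (α β : Fin r → M → Kb), (∀ j, α j ∈ ff_symAlg PK) ∧ (∀ j, β j ∈ ff_symAlg PK) ∧
      ∀ x y : M, ffa_ev2 PK (x, y) b = ∑ j, α j x * β j y := by
  induction b using TensorProduct.induction_on with
  | zero =>
    exact ⟨0, fun j => j.elim0, fun j => j.elim0, fun j => j.elim0, fun j => j.elim0,
      fun x y => by simp⟩
  | tmul φ ψ =>
    refine ⟨1, fun _ => φ, fun _ => ψ, fun _ => φ.2, fun _ => ψ.2, fun x y => ?_⟩
    rw [ffa_main_ev2_tmul]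
    simp
  | add u v hu hv =>
    obtain ⟨r, α, β, hα, hβ, h⟩ := hu
    obtain ⟨r', α', β', hα', hβ', h'⟩ := hv
    refine ⟨r + r', Fin.append α α', Fin.append β β', ?_, ?_, fun x y => ?_⟩
    · intro j
      refine Fin.addCases (fun i => ?_) (fun i => ?_) j
      · rw [Fin.append_left]; exact hα i
      · rw [Fin.append_right]; exact hα' i
    · intro j
      refine Fin.addCases (fun i => ?_) (fun i => ?_) j
      · rw [Fin.append_left]; exact hβ i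
      · rw [Fin.append_right]; exact hβ' i
    · rw [map_add, h, h', Fin.sum_univ_add]
      simp only [Fin.append_left, Fin.append_right]

end Decomp

/-! ### the constant divisor defined by `O`-points -/

section Const

variable {O : Type} [CommRing O] {𝒜 : Type} [CommRing 𝒜] [Algebra O 𝒜]
  (B : Type) [CommRing B] [Algebra O B]

/-- the section `B ⊗ 𝒜 → B` defined by an `O`-point of `𝒜` -/
def ffa_main_sec (p : 𝒜 →ₐ[O] O) : B ⊗[O] 𝒜 →ₐ[B] B :=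
  Algebra.TensorProduct.lift (Algebra.ofId B B) ((Algebra.ofId O B).comp p)
    (fun _ _ => Commute.all _ _)

theorem ffa_main_sec_tmul (p : 𝒜 →ₐ[O] O) (b : B) (a : 𝒜) :
    ffa_main_sec B p (b ⊗ₜ[O] a) = b * algebraMap O B (p a) := by
  simp [ffa_main_sec, Algebra.ofId_apply]

theorem ffa_main_sec_relDiv [Nontrivial B] (p : 𝒜 →ₐ[O] O) :
    ffa_IsRelDiv O 𝒜 B (RingHom.ker (ffa_main_sec B p)) 1 := by
  have hs : Function.Surjective (ffa_main_sec B p) := fun b =>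
    ⟨b ⊗ₜ[O] (1 : 𝒜), by rw [ffa_main_sec_tmul, map_one, map_one, mul_one]⟩
  let e : ((B ⊗[O] 𝒜) ⧸ RingHom.ker (ffa_main_sec B p)) ≃ₐ[B] B :=
    Ideal.quotientKerAlgEquivOfSurjective hs
  refine ⟨Module.Finite.equiv e.toLinearEquiv.symm, Module.Free.of_equiv e.toLinearEquiv.symm, ?_⟩
  rw [e.toLinearEquiv.finrank_eq, Module.finrank_self]

/-- compatibility of the section with a point of the base -/
theorem ffa_main_sec_comm (k : Type) [Field k] [Algebra O k] (ξ : B →ₐ[O] k) (p : 𝒜 →ₐ[O] O)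
    (u : B ⊗[O] 𝒜) :
    ff_pt k ((Algebra.ofId O k).comp p) (ffa_bc 𝒜 ξ u) = ξ (ffa_main_sec B p u) := by
  induction u using TensorProduct.induction_on with
  | zero => simp
  | tmul b a =>
    rw [ffa_main_sec_tmul, map_mul, AlgHom.commutes]
    simp [ffa_bc, ffa_fib_pt_tmul, Algebra.ofId_apply]
  | add x y hx hy => rw [map_add, map_add, map_add, map_add, hx, hy]

/-- the fibre of the kernel of a section is the kernel of the corresponding point -/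
theorem ffa_main_sec_fibre (k : Type) [Field k] [Algebra O k] (ξ : B →ₐ[O] k) (p : 𝒜 →ₐ[O] O) :
    ffa_fibre ξ (RingHom.ker (ffa_main_sec B p)) =
      RingHom.ker (ff_pt k ((Algebra.ofId O k).comp p)) := by
  apply le_antisymm
  · rw [ffa_fibre, Ideal.map_le_iff_le_comap]
    intro u hu
    rw [Ideal.mem_comap, RingHom.mem_ker, ffa_main_sec_comm, (RingHom.mem_ker).mp hu, map_zero]
  · rw [ffa_fib_ker_pt, Ideal.span_le]
    rintro _ ⟨a, rfl⟩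
    have hmem : ((1 : B) ⊗ₜ[O] a - algebraMap O B (p a) ⊗ₜ[O] (1 : 𝒜)) ∈
        RingHom.ker (ffa_main_sec B p) := by
      rw [RingHom.mem_ker, map_sub, ffa_main_sec_tmul, ffa_main_sec_tmul]
      simp
    have himg : ffa_bc 𝒜 ξ ((1 : B) ⊗ₜ[O] a - algebraMap O B (p a) ⊗ₜ[O] (1 : 𝒜)) =
        (1 : k) ⊗ₜ[O] a - ((Algebra.ofId O k).comp p) a ⊗ₜ[O] (1 : 𝒜) := by
      simp [ffa_bc, Algebra.ofId_apply]
    change (1 : k) ⊗ₜ[O] a - ((Algebra.ofId O k).comp p) a ⊗ₜ[O] (1 : 𝒜) ∈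
      ffa_fibre ξ (RingHom.ker (ffa_main_sec B p))
    rw [← himg]
    exact Ideal.mem_map_of_mem _ hmem

end Const

/-! ### the constant divisor `E₀` over a nice base -/

section ConstDiv

variable {O : Type} [CommRing O] [IsDomain O] [IsDiscreteValuationRing O]
  {𝒜 : Type} [CommRing 𝒜] [Algebra O 𝒜] {C : Type} [CommRing C] [Algebra O C] {π : O}
  {Kb : Type} [Field Kb] [IsAlgClosed Kb] [Algebra O Kb]
  {κ : Type} [Field κ] [IsAlgClosed κ] [Algebra O κ]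
  {Λ : ℕ → Submodule O 𝒜} {lead : ∀ m, ↥(Λ m) →ₗ[O] C} {g n m0 c0 : ℕ}

theorem ffa_main_const_relDiv (hMUL : ffa_SeamMUL)
    (hP : ff_IsPkg O 𝒜 C π Kb κ Λ lead g n m0 c0)
    (B : Type) [CommRing B] [Algebra O B] [Nontrivial B] (Ξ : Type) (ξK : Ξ → B →ₐ[O] Kb)
    (ξκ : Ξ → B →ₐ[O] κ) (hB : ffa_IsNice O Kb κ B Ξ ξK ξκ) :
    ∀ {g' : ℕ} (P0 : Fin g' → 𝒜 →ₐ[O] O),
      ffa_IsRelDiv O 𝒜 B (∏ j, RingHom.ker (ffa_main_sec B (P0 j))) g' := by
  intro g'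
  induction g' with
  | zero =>
    intro P0
    have h : (∏ j, RingHom.ker (ffa_main_sec B (P0 j))) = (⊤ : Ideal (B ⊗[O] 𝒜)) := by
      rw [Finset.univ_eq_empty, Finset.prod_empty, Ideal.one_eq_top]
    rw [h]
    have hsub : Subsingleton ((B ⊗[O] 𝒜) ⧸ (⊤ : Ideal (B ⊗[O] 𝒜))) :=
      Ideal.Quotient.subsingleton_iff.mpr rfl
    exact ⟨inferInstance, inferInstance, finrank_zero_of_subsingleton⟩
  | succ g' ih =>
    intro P0
    rw [Fin.prod_univ_succ]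
    have h := hMUL O 𝒜 C π Kb κ Λ lead g n m0 c0 hP B Ξ ξK ξκ hB
      (RingHom.ker (ffa_main_sec B (P0 0))) (∏ j : Fin g', RingHom.ker (ffa_main_sec B (P0 j.succ)))
      1 g' (ffa_main_sec_relDiv B (P0 0)) (ih fun j => P0 j.succ)
    obtain ⟨h1, h2, h3⟩ := h
    exact ⟨h1, h2, by rw [h3, Nat.add_comm]⟩

omit [IsDomain O] [IsDiscreteValuationRing O] in
theorem ffa_main_const_fibre (B : Type) [CommRing B] [Algebra O B]
    (k : Type) [Field k] [Algebra O k] (ξ : B →ₐ[O] k) {g' : ℕ} (P0 : Fin g' → 𝒜 →ₐ[O] O) :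
    ffa_fibre ξ (∏ j, RingHom.ker (ffa_main_sec B (P0 j))) =
      ff_ptIdeal k fun j => (Algebra.ofId O k).comp (P0 j) := by
  have h := map_prod (Ideal.mapHom (ffa_bc 𝒜 ξ)) (fun j => RingHom.ker (ffa_main_sec B (P0 j)))
    Finset.univ
  rw [ffa_fibre, ff_ptIdeal]
  refine h.trans (Finset.prod_congr rfl fun j _ => ?_)
  exact ffa_main_sec_fibre B k ξ (P0 j)

end ConstDiv

/-! ### the core: residuation over an abstract base with two maps from `H` -/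

section Core

variable {O : Type} [CommRing O] [IsDomain O] [IsDiscreteValuationRing O]
  {𝒜 : Type} [CommRing 𝒜] [Algebra O 𝒜] {C : Type} [CommRing C] [Algebra O C] {π : O}
  {Kb : Type} [Field Kb] [IsAlgClosed Kb] [Algebra O Kb]
  {κ : Type} [Field κ] [IsAlgClosed κ] [Algebra O κ]
  {Λ : ℕ → Submodule O 𝒜} {lead : ∀ m, ↥(Λ m) →ₗ[O] C} {g n m0 c0 : ℕ}

theorem ffa_main_core (hBC : ffa_SeamBC) (hMUL : ffa_SeamMUL) (hRES : ffa_SeamRES)
    (hCHAR : ffa_SeamCHAR) (hP : ff_IsPkg O 𝒜 C π Kb κ Λ lead g n m0 c0)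
    {M : Type} [AddCommGroup M]
    (PK : M → Fin g → 𝒜 →ₐ[O] Kb) (Pκ : M → Fin g → 𝒜 →ₐ[O] κ) (P0 : Fin g → 𝒜 →ₐ[O] O)
    (hLK : ∀ x y : M, ff_LinEq O 𝒜 C Kb Λ lead (ff_ptIdeal Kb (PK (x + y)))
      (ff_ptIdeal Kb fun j => (Algebra.ofId O Kb).comp (P0 j))
      (ff_ptIdeal Kb (PK x)) (ff_ptIdeal Kb (PK y)))
    (hUK : ∀ z : M, ff_Uniq O 𝒜 C Kb Λ lead (ff_ptIdeal Kb (PK z)))
    (hLκ : ∀ x y : M, ff_LinEq O 𝒜 C κ Λ lead (ff_ptIdeal κ (Pκ (x + y)))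
      (ff_ptIdeal κ fun j => (Algebra.ofId O κ).comp (P0 j))
      (ff_ptIdeal κ (Pκ x)) (ff_ptIdeal κ (Pκ y)))
    (hUκ : ∀ z : M, ff_Uniq O 𝒜 C κ Λ lead (ff_ptIdeal κ (Pκ z)))
    (H : Type) [CommRing H] [Algebra O H] (evK : M → H →ₐ[O] Kb) (evκ : M → H →ₐ[O] κ)
    (IH : Ideal (H ⊗[O] 𝒜)) (hIH : ffa_IsRelDiv O 𝒜 H IH g)
    (hIHK : ∀ z, ffa_fibre (evK z) IH = ff_ptIdeal Kb (PK z))
    (hIHκ : ∀ z, ffa_fibre (evκ z) IH = ff_ptIdeal κ (Pκ z))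
    (B : Type) [CommRing B] [Algebra O B] [Nontrivial B] (i₁ i₂ : H →ₐ[O] B)
    (ξK : M × M → B →ₐ[O] Kb) (ξκ : M × M → B →ₐ[O] κ)
    (hB : ffa_IsNice O Kb κ B (M × M) ξK ξκ)
    (hi₁K : ∀ p, (ξK p).comp i₁ = evK p.1) (hi₂K : ∀ p, (ξK p).comp i₂ = evK p.2)
    (hi₁κ : ∀ p, (ξκ p).comp i₁ = evκ p.1) (hi₂κ : ∀ p, (ξκ p).comp i₂ = evκ p.2)
    (a : 𝒜) (i : ℕ) :
    ∃ b : B, ∀ x y : M,
      ξK (x, y) b = ((Finset.univ : Finset (Fin g)).val.map fun j => PK (x + y) j a).esymm i := by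
  -- the two pull-backs of the tautological divisor
  have hbcK := hBC O 𝒜 H B Kb
  have hbcκ := hBC O 𝒜 H B κ
  have hI₁ : ffa_IsRelDiv O 𝒜 B (ffa_fibre i₁ IH) g := (hbcK i₁ (ξK (0, 0)) IH g hIH).1
  have hI₂ : ffa_IsRelDiv O 𝒜 B (ffa_fibre i₂ IH) g := (hbcK i₂ (ξK (0, 0)) IH g hIH).1
  have hI₁K : ∀ p, ffa_fibre (ξK p) (ffa_fibre i₁ IH) = ff_ptIdeal Kb (PK p.1) :=
    fun p => by rw [(hbcK i₁ (ξK p) IH g hIH).2, hi₁K, hIHK]
  have hI₂K : ∀ p, ffa_fibre (ξK p) (ffa_fibre i₂ IH) = ff_ptIdeal Kb (PK p.2) :=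
    fun p => by rw [(hbcK i₂ (ξK p) IH g hIH).2, hi₂K, hIHK]
  have hI₁κ : ∀ p, ffa_fibre (ξκ p) (ffa_fibre i₁ IH) = ff_ptIdeal κ (Pκ p.1) :=
    fun p => by rw [(hbcκ i₁ (ξκ p) IH g hIH).2, hi₁κ, hIHκ]
  have hI₂κ : ∀ p, ffa_fibre (ξκ p) (ffa_fibre i₂ IH) = ff_ptIdeal κ (Pκ p.2) :=
    fun p => by rw [(hbcκ i₂ (ξκ p) IH g hIH).2, hi₂κ, hIHκ]
  -- their product
  have hI : ffa_IsRelDiv O 𝒜 B (ffa_fibre i₁ IH * ffa_fibre i₂ IH) (2 * g) := by
    have h := hMUL O 𝒜 C π Kb κ Λ lead g n m0 c0 hP B (M × M) ξK ξκ hB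
      (ffa_fibre i₁ IH) (ffa_fibre i₂ IH) g g hI₁ hI₂
    rwa [← two_mul] at h
  have hIK : ∀ p, ffa_fibre (ξK p) (ffa_fibre i₁ IH * ffa_fibre i₂ IH) =
      ff_ptIdeal Kb (PK p.1) * ff_ptIdeal Kb (PK p.2) := fun p => by
    rw [← hI₁K, ← hI₂K]
    exact Ideal.map_mul _ _ _
  have hIκ : ∀ p, ffa_fibre (ξκ p) (ffa_fibre i₁ IH * ffa_fibre i₂ IH) =
      ff_ptIdeal κ (Pκ p.1) * ff_ptIdeal κ (Pκ p.2) := fun p => by
    rw [← hI₁κ, ← hI₂κ]
    exact Ideal.map_mul _ _ _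
  -- the constant divisor
  have hI₀ := ffa_main_const_relDiv hMUL hP B (M × M) ξK ξκ hB P0
  have hI₀K := fun p : M × M => ffa_main_const_fibre B Kb (ξK p) P0
  have hI₀κ := fun p : M × M => ffa_main_const_fibre B κ (ξκ p) P0
  -- two-step residuation
  obtain ⟨DD, hDD, hDDK⟩ := hRES O 𝒜 C π Kb κ Λ lead g n m0 c0 hP B (M × M) ξK ξκ
    hB (ffa_fibre i₁ IH * ffa_fibre i₂ IH) _ hI hI₀ (fun p => ff_ptIdeal Kb (PK (p.1 + p.2)))
    (fun p => ff_ptIdeal κ (Pκ (p.1 + p.2)))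
    (fun p => ffa_fib_finrank_ptIdeal_K hP _) (fun p => ffa_fib_finrank_ptIdeal_κ hP _)
    (fun p => by
      obtain ⟨s, h, h', hu, hu', heq⟩ := hLK p.1 p.2
      refine ⟨s, h, h', hu, hu', ?_⟩
      rw [hI₀K, hIK, Ideal.mul_top, heq, mul_assoc])
    (fun p => hUK _)
    (fun p => by
      obtain ⟨s, h, h', hu, hu', heq⟩ := hLκ p.1 p.2
      refine ⟨s, h, h', hu, hu', ?_⟩
      rw [hI₀κ, hIκ, Ideal.mul_top, heq, mul_assoc])
    (fun p => hUκ _)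
  -- the symmetric functions
  obtain ⟨b, hb⟩ := hCHAR O 𝒜 Kb hP.dedK B g DD hDD a i
  exact ⟨b, fun x y => hb (ξK (x, y)) (PK (x + y)) (hDDK (x, y))⟩

end Core

/-! ### the main theorem of the cell -/

/-- **[A-MAIN]** the six seams of the cell imply the abstract residuation theorem. -/
theorem ffa_main (hORD : ffa_SeamORD) (hT : ffa_SeamT) (hBC : ffa_SeamBC) (hMUL : ffa_SeamMUL)
    (hRES : ffa_SeamRES) (hCHAR : ffa_SeamCHAR) : ff_SeamADD := by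
  intro O _ _ _ 𝒜 _ _ C _ _ π Kb _ _ _ κ _ _ _ Λ lead g n m0 c0 hP M _ _ PK Pκ P0 Av res
    hresO hresP hLK hUK hLκ hUκ hfin hindep hmax a i
  have hH : ffa_HHyp PK Pκ Av res := ⟨hresO, hresP, hfin, hindep, hmax⟩
  obtain ⟨evκ, hev, hniceH, hniceHH⟩ :=
    hORD O 𝒜 Kb κ π hP.irr hP.res_surj hP.res_ker hP.inj M g PK Pκ Av res hH
  obtain ⟨IH, hIH, hIHK, hIHκ⟩ :=
    hT O 𝒜 C π Kb κ Λ lead g n m0 c0 hP M PK Pκ Av res hH evκ hev hniceH
  have hBnt : Nontrivial (↥(ff_symAlg PK) ⊗[O] ↥(ff_symAlg PK)) :=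
    RingHom.domain_nontrivial (ffa_ev2 PK ((0 : M), (0 : M))).toRingHom
  have core := ffa_main_core hBC hMUL hRES hCHAR hP PK Pκ P0 hLK hUK hLκ hUκ
    ↥(ff_symAlg PK) (ffa_ev PK) evκ IH hIH hIHK hIHκ
    (↥(ff_symAlg PK) ⊗[O] ↥(ff_symAlg PK))
  have core2 := core Algebra.TensorProduct.includeLeft Algebra.TensorProduct.includeRight
  have core3 := core2 (ffa_ev2 PK)
    (fun p => Algebra.TensorProduct.lift (evκ p.1) (evκ p.2) (fun _ _ => Commute.all _ _))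
  have core4 := core3 hniceHH
  have core5 := core4
    (fun p => Algebra.TensorProduct.lift_comp_includeLeft _ _ (fun _ _ => Commute.all _ _))
  have core6 := core5
    (fun p => Algebra.TensorProduct.lift_comp_includeRight' _ _ (fun _ _ => Commute.all _ _))
  have core7 := core6
    (fun p => Algebra.TensorProduct.lift_comp_includeLeft _ _ (fun _ _ => Commute.all _ _))
  have core8 := core7
    (fun p => Algebra.TensorProduct.lift_comp_includeRight' _ _ (fun _ _ => Commute.all _ _))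
  obtain ⟨b, hb⟩ := core8 a i
  obtain ⟨r, α, β, hα, hβ, hab⟩ := ffa_main_decomp PK b
  refine ⟨r, α, β, hα, hβ, fun x y => ?_⟩
  rw [← hab x y, hb x y]
  rfl

end Fermat.Agent.FF
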