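/-
Project FF (S19), cell [ADD], leaf [A-ORD] (helper24): `H = ff_symAlg PK` and `H ⊗ H` are nice
bases.  Prefix `ffa_ord_`.  Deliverable: `ffa_seamORD : ffa_SeamORD`.
-/
import Mathlib
import Fermat.Agent.FF.Add.Seams

set_option autoImplicit false

noncomputable section

namespace Fermat.Agent.FF

open scoped TensorProduct

section Ord

variable {O : Type} [CommRing O] {𝒜 : Type} [CommRing 𝒜] [Algebra O 𝒜]
  {Kb : Type} [Field Kb] [Algebra O Kb] {κ : Type} [Field κ] [Algebra O κ]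
  {M : Type} {g : ℕ} {PK : M → Fin g → 𝒜 →ₐ[O] Kb} {Pκ : M → Fin g → 𝒜 →ₐ[O] κ}
  {Av : Subring Kb} {res : ↥Av →+* κ}

/-- the subalgebra of `Av`-valued functions on `M` -/
def ffa_ord_AvAlg (Av : Subring Kb) (hO : ∀ o : O, algebraMap O Kb o ∈ Av) (M : Type) :
    Subalgebra O (M → Kb) where
  carrier := {φ | ∀ z, φ z ∈ Av}
  mul_mem' := fun ha hb z => Av.mul_mem (ha z) (hb z)
  one_mem' := fun _ => Av.one_mem
  add_mem' := fun ha hb z => Av.add_mem (ha z) (hb z)
  zero_mem' := fun _ => Av.zero_mem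
  algebraMap_mem' := fun o _ => hO o

theorem ffa_ord_esymm_mem (Av : Subring Kb) (s : Multiset Kb) (hs : ∀ x ∈ s, x ∈ Av) (i : ℕ) :
    s.esymm i ∈ Av := by
  unfold Multiset.esymm
  refine Av.multiset_sum_mem _ ?_
  intro x hx
  obtain ⟨t, ht, rfl⟩ := Multiset.mem_map.1 hx
  refine Av.multiset_prod_mem _ ?_
  intro y hy
  exact hs y (Multiset.mem_of_le (Multiset.mem_powersetCard.1 ht).1 hy)

/-- the elements of `H` are `Av`-valued -/
theorem ffa_ord_mem_Av (hH : ffa_HHyp PK Pκ Av res) (φ : ↥(ff_symAlg PK)) (z : M) :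
    (φ : M → Kb) z ∈ Av := by
  have hle : ff_symAlg PK ≤ ffa_ord_AvAlg Av (fun o => (hH.resO o).1) M := by
    refine Algebra.adjoin_le ?_
    rintro _ ⟨a, i, rfl⟩ z
    refine ffa_ord_esymm_mem Av _ ?_ i
    intro x hx
    obtain ⟨j, -, rfl⟩ := Multiset.mem_map.1 hx
    exact (hH.resP z j a).1
  exact hle φ.2 z

/-- the closed point `φ ↦ res (φ z)` of `H` -/
def ffa_ord_evκ (hH : ffa_HHyp PK Pκ Av res) (z : M) : ↥(ff_symAlg PK) →ₐ[O] κ :=
  { res.comp
      (((Pi.evalRingHom (fun _ : M => Kb) z).comp (ff_symAlg PK).val.toRingHom).codRestrict Av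
        (fun φ => ffa_ord_mem_Av hH φ z)) with
    commutes' := fun o => (hH.resO o).2 }

theorem ffa_ord_evκ_apply (hH : ffa_HHyp PK Pκ Av res) (z : M) (φ : ↥(ff_symAlg PK))
    (h : (φ : M → Kb) z ∈ Av) : ffa_ord_evκ hH z φ = res ⟨_, h⟩ := rfl

theorem ffa_ord_ev_apply (z : M) (φ : ↥(ff_symAlg PK)) : ffa_ev PK z φ = (φ : M → Kb) z := rfl

/-- `H` is torsion-free over `O` -/
theorem ffa_ord_torsionFree [IsDomain O] (hinj : Function.Injective (algebraMap O Kb))
    (PK : M → Fin g → 𝒜 →ₐ[O] Kb) : Module.IsTorsionFree O ↥(ff_symAlg PK) := by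
  refine ⟨fun r hr φ ψ h => ?_⟩
  have hr0 : algebraMap O Kb r ≠ 0 := by
    intro h0
    exact hr.ne_zero (hinj (by rw [h0, map_zero]))
  apply Subtype.ext
  funext z
  have hz : (algebraMap O Kb r) * (φ : M → Kb) z = (algebraMap O Kb r) * (ψ : M → Kb) z := by
    have := congrArg (fun χ : ↥(ff_symAlg PK) => (χ : M → Kb) z) h
    simpa [Algebra.smul_def] using this
  exact mul_left_cancel₀ hr0 hz

/-- **`H` is a nice base.** -/
theorem ffa_ord_nice1 [IsDomain O] [IsPrincipalIdealRing O] [Finite M]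
    (hinj : Function.Injective (algebraMap O Kb)) (hH : ffa_HHyp PK Pκ Av res) :
    ffa_IsNice O Kb κ ↥(ff_symAlg PK) M (ffa_ev PK) (ffa_ord_evκ hH) := by
  have := hH.fin
  have := ffa_ord_torsionFree (𝒜 := 𝒜) hinj PK
  refine ⟨hH.fin, Module.free_of_finite_type_torsion_free', inferInstance, ?_, ?_, ?_⟩
  · intro b hb
    apply Subtype.ext
    funext z
    exact hb z
  · intro 𝔪 h𝔪
    obtain ⟨z, hz⟩ := hH.max 𝔪 h𝔪
    refine ⟨z, ?_⟩
    ext φ
    rw [hz φ, RingHom.mem_ker]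
    constructor
    · rintro ⟨c, hc, hc0⟩
      rw [ffa_ord_evκ_apply hH z φ (hc ▸ c.2)]
      have : (⟨(φ : M → Kb) z, hc ▸ c.2⟩ : ↥Av) = c := Subtype.ext hc.symm
      rw [this, hc0]
    · intro h
      exact ⟨⟨_, ffa_ord_mem_Av hH φ z⟩, rfl, h⟩
  · intro z b hb
    rw [ffa_ord_ev_apply] at hb
    rw [ffa_ord_evκ_apply hH z b (ffa_ord_mem_Av hH b z)]
    have : (⟨(b : M → Kb) z, ffa_ord_mem_Av hH b z⟩ : ↥Av) = 0 := Subtype.ext hb
    rw [this, map_zero]

/-- the closed point `(x, y)` of `H ⊗ H` -/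
def ffa_ord_evκ2 (hH : ffa_HHyp PK Pκ Av res) (p : M × M) :
    ↥(ff_symAlg PK) ⊗[O] ↥(ff_symAlg PK) →ₐ[O] κ :=
  Algebra.TensorProduct.lift (ffa_ord_evκ hH p.1) (ffa_ord_evκ hH p.2) (fun _ _ => Commute.all _ _)

theorem ffa_ord_ev2_tmul (p : M × M) (a b : ↥(ff_symAlg PK)) :
    ffa_ev2 PK p (a ⊗ₜ[O] b) = (a : M → Kb) p.1 * (b : M → Kb) p.2 := by
  unfold ffa_ev2
  rw [Algebra.TensorProduct.lift_tmul]
  rfl

theorem ffa_ord_evκ2_tmul (hH : ffa_HHyp PK Pκ Av res) (p : M × M) (a b : ↥(ff_symAlg PK)) :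
    ffa_ord_evκ2 hH p (a ⊗ₜ[O] b) = ffa_ord_evκ hH p.1 a * ffa_ord_evκ hH p.2 b := by
  unfold ffa_ord_evκ2
  rw [Algebra.TensorProduct.lift_tmul]

/-- the values of the generic points of `H ⊗ H` are in `Av` and reduce to the closed points -/
theorem ffa_ord_val2 (hH : ffa_HHyp PK Pκ Av res) (p : M × M)
    (b : ↥(ff_symAlg PK) ⊗[O] ↥(ff_symAlg PK)) :
    ∃ h : ffa_ev2 PK p b ∈ Av, res ⟨_, h⟩ = ffa_ord_evκ2 hH p b := by
  induction b using TensorProduct.induction_on with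
  | zero =>
    refine ⟨by rw [map_zero]; exact Av.zero_mem, ?_⟩
    have : (⟨ffa_ev2 PK p 0, by rw [map_zero]; exact Av.zero_mem⟩ : ↥Av) = 0 :=
      Subtype.ext (map_zero _)
    rw [this, map_zero, map_zero]
  | tmul a b =>
    have h1 := ffa_ord_mem_Av hH a p.1
    have h2 := ffa_ord_mem_Av hH b p.2
    have hm : ffa_ev2 PK p (a ⊗ₜ[O] b) ∈ Av := by
      rw [ffa_ord_ev2_tmul]; exact Av.mul_mem h1 h2
    refine ⟨hm, ?_⟩
    have : (⟨ffa_ev2 PK p (a ⊗ₜ[O] b), hm⟩ : ↥Av) =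
        ⟨(a : M → Kb) p.1, h1⟩ * ⟨(b : M → Kb) p.2, h2⟩ :=
      Subtype.ext (ffa_ord_ev2_tmul p a b)
    rw [this, map_mul, ffa_ord_evκ2_tmul]
    rfl
  | add x y hx hy =>
    obtain ⟨h1, e1⟩ := hx
    obtain ⟨h2, e2⟩ := hy
    have hm : ffa_ev2 PK p (x + y) ∈ Av := by
      rw [map_add]; exact Av.add_mem h1 h2
    refine ⟨hm, ?_⟩
    have : (⟨ffa_ev2 PK p (x + y), hm⟩ : ↥Av) = ⟨_, h1⟩ + ⟨_, h2⟩ :=
      Subtype.ext (map_add _ _ _)
    rw [this, map_add, map_add, e1, e2]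

/-- `H ⊗ H → Map(M × M, Kb)` is injective (`indep` twice) -/
theorem ffa_ord_inj2 (hinj : Function.Injective (algebraMap O Kb))
    (hH : ffa_HHyp PK Pκ Av res) [Module.Free O ↥(ff_symAlg PK)]
    (b : ↥(ff_symAlg PK) ⊗[O] ↥(ff_symAlg PK)) (hb : ∀ p, ffa_ev2 PK p b = 0) : b = 0 := by
  have := hH.fin
  let e := Module.Free.chooseBasis O ↥(ff_symAlg PK)
  let E := e.tensorProduct e
  -- the basis is `Kb`-linearly independent
  have hindO : LinearIndependent O (fun i => ((e i : ↥(ff_symAlg PK)) : M → Kb)) := by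
    have := e.linearIndependent.map' (ff_symAlg PK).val.toLinearMap
      (LinearMap.ker_eq_bot.2 Subtype.val_injective)
    exact this
  have hindK : LinearIndependent Kb (fun i => ((e i : ↥(ff_symAlg PK)) : M → Kb)) :=
    hH.indep _ _ (fun j => (e j).2) hindO
  rw [Fintype.linearIndependent_iff] at hindK
  -- the value of `b` at `(x, y)`
  have hval : ∀ x y : M, ∑ i, (∑ j, algebraMap O Kb (E.repr b (i, j)) * (e j : M → Kb) y) *
      (e i : M → Kb) x = 0 := by
    intro x y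
    have h := hb (x, y)
    rw [← E.sum_repr b, map_sum, Fintype.sum_prod_type] at h
    rw [← h]
    refine Finset.sum_congr rfl fun i _ => ?_
    rw [Finset.sum_mul]
    refine Finset.sum_congr rfl fun j _ => ?_
    rw [map_smul, Module.Basis.tensorProduct_apply, ffa_ord_ev2_tmul, Algebra.smul_def]
    ring
  have h1 : ∀ (y : M) (i), ∑ j, algebraMap O Kb (E.repr b (i, j)) * (e j : M → Kb) y = 0 := by
    intro y
    refine hindK (fun i => ∑ j, algebraMap O Kb (E.repr b (i, j)) * (e j : M → Kb) y) ?_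
    funext x
    simp only [Finset.sum_apply, Pi.smul_apply, smul_eq_mul, Pi.zero_apply]
    exact hval x y
  have h2 : ∀ i j, algebraMap O Kb (E.repr b (i, j)) = 0 := by
    intro i
    refine hindK (fun j => algebraMap O Kb (E.repr b (i, j))) ?_
    funext y
    simp only [Finset.sum_apply, Pi.smul_apply, smul_eq_mul, Pi.zero_apply]
    exact h1 y i
  have h3 : E.repr b = 0 := by
    ext ⟨i, j⟩
    apply hinj
    rw [h2 i j]
    simp
  exact (LinearEquiv.map_eq_zero_iff _).1 h3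

end Ord

section Max2

variable {O : Type} [CommRing O] {H : Type} [CommRing H] [Algebra O H]
  {κ : Type} [Field κ] [Algebra O κ] {M : Type}

/-- every maximal ideal of `H ⊗ H` is the kernel of a closed point `(x, y)` (abstract form) -/
theorem ffa_ord_max2_gen [Module.Finite O H] (hsurj : Function.Surjective (algebraMap O κ))
    (ev : M → H →ₐ[O] κ)
    (hmax : ∀ 𝔪 : Ideal H, 𝔪.IsMaximal → ∃ z, 𝔪 = RingHom.ker (ev z))
    (𝔫 : Ideal (H ⊗[O] H)) (h𝔫 : 𝔫.IsMaximal) :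
    ∃ p : M × M, 𝔫 = RingHom.ker
      (Algebra.TensorProduct.lift (ev p.1) (ev p.2) (fun _ _ => Commute.all _ _)) := by
  have hintO := algebraMap_isIntegral_iff.2 (Algebra.IsIntegral.of_finite O (H ⊗[O] H))
  set ι₁ : H →ₐ[O] H ⊗[O] H := Algebra.TensorProduct.includeLeft with hι₁
  set ι₂ : H →ₐ[O] H ⊗[O] H := Algebra.TensorProduct.includeRight with hι₂
  have hint₁ : ι₁.toRingHom.IsIntegral := by
    refine RingHom.IsIntegral.tower_top (algebraMap O H) _ ?_
    rw [AlgHom.toRingHom_eq_coe, AlgHom.comp_algebraMap]; exact hintO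
  have hint₂ : ι₂.toRingHom.IsIntegral := by
    refine RingHom.IsIntegral.tower_top (algebraMap O H) _ ?_
    rw [AlgHom.toRingHom_eq_coe, AlgHom.comp_algebraMap]; exact hintO
  have hm₁ := Ideal.isMaximal_comap_of_isIntegral_of_isMaximal' _ hint₁ 𝔫
  have hm₂ := Ideal.isMaximal_comap_of_isIntegral_of_isMaximal' _ hint₂ 𝔫
  obtain ⟨x, hx⟩ := hmax _ hm₁
  obtain ⟨y, hy⟩ := hmax _ hm₂
  refine ⟨(x, y), ?_⟩
  set χ : H ⊗[O] H →ₐ[O] κ :=
    Algebra.TensorProduct.lift (ev x) (ev y) (fun _ _ => Commute.all _ _) with hχ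
  have hχtmul : ∀ a b : H, χ (a ⊗ₜ[O] b) = ev x a * ev y b := fun a b => by
    rw [hχ, Algebra.TensorProduct.lift_tmul]
  -- the ideal generated by the two maximal ideals
  set J : Ideal (H ⊗[O] H) :=
    (RingHom.ker (ev x)).map ι₁.toRingHom ⊔ (RingHom.ker (ev y)).map ι₂.toRingHom with hJ
  have hJ𝔫 : J ≤ 𝔫 := by
    refine sup_le ?_ ?_
    · rw [← hx]; exact Ideal.map_comap_le
    · rw [← hy]; exact Ideal.map_comap_le
  have hJ₁ : ∀ a : H, ev x a = 0 → ι₁ a ∈ J := fun a ha =>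
    Ideal.mem_sup_left (Ideal.mem_map_of_mem ι₁.toRingHom ((RingHom.mem_ker).2 ha))
  have hJ₂ : ∀ a : H, ev y a = 0 → ι₂ a ∈ J := fun a ha =>
    Ideal.mem_sup_right (Ideal.mem_map_of_mem ι₂.toRingHom ((RingHom.mem_ker).2 ha))
  have hJχ : J ≤ RingHom.ker χ := by
    refine sup_le ?_ ?_
    · rw [Ideal.map_le_iff_le_comap]
      intro a ha
      rw [Ideal.mem_comap, RingHom.mem_ker]
      have : χ (ι₁ a) = ev x a * ev y 1 := hχtmul a 1
      change χ (ι₁ a) = 0
      rw [this, (RingHom.mem_ker).1 ha, zero_mul]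
    · rw [Ideal.map_le_iff_le_comap]
      intro a ha
      rw [Ideal.mem_comap, RingHom.mem_ker]
      have : χ (ι₂ a) = ev x 1 * ev y a := hχtmul 1 a
      change χ (ι₂ a) = 0
      rw [this, (RingHom.mem_ker).1 ha, mul_zero]
  -- every element is a constant modulo `J`
  have hconst : ∀ t : H ⊗[O] H, ∃ o : O, t - algebraMap O _ o ∈ J := by
    intro t
    induction t using TensorProduct.induction_on with
    | zero => exact ⟨0, by rw [map_zero, sub_zero]; exact J.zero_mem⟩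
    | tmul a b =>
      obtain ⟨o₁, ho₁⟩ := hsurj (ev x a)
      obtain ⟨o₂, ho₂⟩ := hsurj (ev y b)
      refine ⟨o₁ * o₂, ?_⟩
      have ha : ev x (a - algebraMap O _ o₁) = 0 := by
        rw [map_sub, AlgHom.commutes, ho₁, sub_self]
      have hb : ev y (b - algebraMap O _ o₂) = 0 := by
        rw [map_sub, AlgHom.commutes, ho₂, sub_self]
      have hcc : (algebraMap O H o₁) ⊗ₜ[O] (algebraMap O H o₂) =
          (algebraMap O H o₁ * algebraMap O H o₂) ⊗ₜ[O] (1 : H) := by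
        rw [Algebra.algebraMap_eq_smul_one o₂, TensorProduct.tmul_smul, TensorProduct.smul_tmul',
          Algebra.smul_def o₂ (algebraMap O H o₁), ← Algebra.algebraMap_eq_smul_one, mul_comm]
      have key : a ⊗ₜ[O] b - algebraMap O (H ⊗[O] H) (o₁ * o₂) =
          ι₁ (a - algebraMap O _ o₁) * ι₂ b +
            ι₁ (algebraMap O _ o₁) * ι₂ (b - algebraMap O _ o₂) := by
        rw [Algebra.TensorProduct.algebraMap_apply, map_mul, ← hcc]
        simp only [hι₁, hι₂, Algebra.TensorProduct.includeLeft_apply,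
          Algebra.TensorProduct.includeRight_apply, TensorProduct.sub_tmul, TensorProduct.tmul_sub,
          sub_mul, mul_sub, Algebra.TensorProduct.tmul_mul_tmul, mul_one, one_mul]
        abel
      rw [key]
      exact J.add_mem (J.mul_mem_right _ (hJ₁ _ ha)) (J.mul_mem_left _ (hJ₂ _ hb))
    | add t t' ht ht' =>
      obtain ⟨o, ho⟩ := ht
      obtain ⟨o', ho'⟩ := ht'
      refine ⟨o + o', ?_⟩
      have : t + t' - algebraMap O _ (o + o') =
          (t - algebraMap O _ o) + (t' - algebraMap O _ o') := by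
        rw [map_add]; abel
      rw [this]
      exact J.add_mem ho ho'
  have hχsurj : Function.Surjective χ := by
    intro c
    obtain ⟨o, rfl⟩ := hsurj c
    exact ⟨algebraMap O _ o, AlgHom.commutes _ _⟩
  have hχmax : (RingHom.ker χ).IsMaximal := RingHom.ker_isMaximal_of_surjective χ hχsurj
  have hle : RingHom.ker χ ≤ 𝔫 := by
    intro t ht
    obtain ⟨o, ho⟩ := hconst t
    have h1 : χ (algebraMap O _ o) = 0 := by
      have h2 := hJχ ho
      rw [RingHom.mem_ker, map_sub, (RingHom.mem_ker).1 ht, zero_sub, neg_eq_zero] at h2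
      exact h2
    rw [AlgHom.commutes] at h1
    have h3 : ev x (algebraMap O _ o) = 0 := by rw [AlgHom.commutes, h1]
    have h4 : algebraMap O (H ⊗[O] H) o ∈ J := by
      have := hJ₁ _ h3
      rwa [AlgHom.commutes] at this
    have : t = (t - algebraMap O _ o) + algebraMap O _ o := by abel
    rw [this]
    exact hJ𝔫 (J.add_mem ho h4)
  exact (hχmax.eq_of_le h𝔫.ne_top hle).symm

end Max2

section Main

variable {O : Type} [CommRing O] {𝒜 : Type} [CommRing 𝒜] [Algebra O 𝒜]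
  {Kb : Type} [Field Kb] [Algebra O Kb] {κ : Type} [Field κ] [Algebra O κ]
  {M : Type} {g : ℕ} {PK : M → Fin g → 𝒜 →ₐ[O] Kb} {Pκ : M → Fin g → 𝒜 →ₐ[O] κ}
  {Av : Subring Kb} {res : ↥Av →+* κ}

/-- **`H ⊗ H` is a nice base.** -/
theorem ffa_ord_nice2 [IsDomain O] [IsPrincipalIdealRing O] [Finite M]
    (hsurj : Function.Surjective (algebraMap O κ))
    (hinj : Function.Injective (algebraMap O Kb)) (hH : ffa_HHyp PK Pκ Av res) :
    ffa_IsNice O Kb κ (↥(ff_symAlg PK) ⊗[O] ↥(ff_symAlg PK)) (M × M) (ffa_ev2 PK)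
      (fun p => Algebra.TensorProduct.lift (ffa_ord_evκ hH p.1) (ffa_ord_evκ hH p.2)
        (fun _ _ => Commute.all _ _)) := by
  have h1 := ffa_ord_nice1 hinj hH
  have := h1.fin
  have := h1.free
  refine ⟨inferInstance, inferInstance, inferInstance, ?_, ?_, ?_⟩
  · exact fun b hb => ffa_ord_inj2 hinj hH b hb
  · exact fun 𝔫 h𝔫 => ffa_ord_max2_gen hsurj (ffa_ord_evκ hH) h1.max 𝔫 h𝔫
  · intro p b hb
    obtain ⟨h, e⟩ := ffa_ord_val2 hH p b
    have h0 : (⟨ffa_ev2 PK p b, h⟩ : ↥Av) = 0 := Subtype.ext hb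
    rw [h0, map_zero] at e
    exact e.symm

/-- **[A-ORD]** -/
theorem ffa_seamORD : ffa_SeamORD := by
  intro O _ _ _ 𝒜 _ _ Kb _ _ _ κ _ _ _ π _ hsurj _ hinj M _ g PK Pκ Av res hH
  exact ⟨ffa_ord_evκ hH, fun z φ h => ffa_ord_evκ_apply hH z φ h, ffa_ord_nice1 hinj hH,
    ffa_ord_nice2 hsurj hinj hH⟩

end Main

end Fermat.Agent.FF
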