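/-
Project FF (S19), cell [ADD], leaf [A-T] (tautological divisor), part 1: THE FIBRE LEMMA.

`R` a Dedekind domain, not a field, an algebra over a field `k`; `p j : R →ₐ[k] k` (`j < g`) rational
points, `𝔪_j = ker (p j)`.

* `ffa_t_ker_isMaximal`, `ffa_t_ker_ne_bot`;
* `ffa_t_res_surj`    : (Zariski) over an algebraically closed `k`, all residue fields of a finite
                        type `k`-algebra are `k`;
* `ffa_t_normalizedFactors_prod`, `ffa_t_finrank_prod` : `dim_k R / ∏ 𝔪_j = g`;
* `ffa_t_prod_le`     : **the fibre lemma**: an ideal `J` containing all the "characteristic values"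
                        `∏_j (r - p_j(r))`, `r ∈ R`, contains `∏_j 𝔪_j`  (choose `r` a uniformiser at
                        one point, a unit at the others; `𝔪`-adic valuations).

Mathlib + FF/Dict/Quot only.  Prefix `ffa_t_`.
-/
import Mathlib
import Fermat.Agent.FF.Dict.Quot

set_option autoImplicit false
set_option linter.style.haveILetI false

namespace Fermat.Agent.FF

open Module UniqueFactorizationMonoid IsDedekindDomain WithZero

section Points

variable {k R : Type*} [Field k] [CommRing R] [Algebra k R]

theorem ffa_t_pt_algebraMap (p : R →ₐ[k] k) (c : k) : p (algebraMap k R c) = c := by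
  rw [p.commutes]; rfl

theorem ffa_t_pt_surjective (p : R →ₐ[k] k) : Function.Surjective p :=
  fun c => ⟨algebraMap k R c, ffa_t_pt_algebraMap p c⟩

theorem ffa_t_ker_isMaximal (p : R →ₐ[k] k) : (RingHom.ker (p : R →+* k)).IsMaximal :=
  RingHom.ker_isMaximal_of_surjective _ (ffa_t_pt_surjective p)

theorem ffa_t_sub_mem_ker (p : R →ₐ[k] k) (r : R) :
    r - algebraMap k R (p r) ∈ RingHom.ker (p : R →+* k) := by
  rw [RingHom.mem_ker, map_sub]
  show p r - p (algebraMap k R (p r)) = 0
  rw [ffa_t_pt_algebraMap, sub_self]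

theorem ffa_t_ker_ne_bot (hR : ¬ IsField R) (p : R →ₐ[k] k) :
    RingHom.ker (p : R →+* k) ≠ ⊥ := by
  intro h
  apply hR
  have hinj : Function.Injective (p : R →+* k) := (RingHom.injective_iff_ker_eq_bot _).2 h
  exact MulEquiv.isField (Field.toIsField k)
    (RingEquiv.ofBijective (p : R →+* k) ⟨hinj, ffa_t_pt_surjective p⟩).toMulEquiv

/-- (Zariski's lemma) all residue fields of a finite type algebra over an algebraically closed field
are the base field. -/
theorem ffa_t_res_surj [IsAlgClosed k] [Algebra.FiniteType k R] (P : Ideal R) (hP : P.IsMaximal) :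
    Function.Surjective (algebraMap k (R ⧸ P)) := by
  letI := Ideal.Quotient.field P
  haveI : Algebra.FiniteType k (R ⧸ P) :=
    Algebra.FiniteType.of_surjective (Ideal.Quotient.mkₐ k P) (Ideal.Quotient.mkₐ_surjective k P)
  haveI : Module.Finite k (R ⧸ P) := finite_of_finite_type_of_isJacobsonRing k (R ⧸ P)
  exact (IsAlgClosed.algebraMap_bijective_of_isIntegral (k := k) (K := R ⧸ P)).2

end Points

section Dedekind

variable {k R : Type*} [Field k] [CommRing R] [IsDedekindDomain R] [Algebra k R]
  {g : ℕ} (p : Fin g → R →ₐ[k] k)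

theorem ffa_t_prod_ne_bot (hR : ¬ IsField R) : (∏ j, RingHom.ker (p j : R →+* k)) ≠ ⊥ := by
  rw [← Ideal.zero_eq_bot, Finset.prod_ne_zero_iff]
  intro j _
  rw [Ideal.zero_eq_bot]
  exact ffa_t_ker_ne_bot hR (p j)

/-- the prime factorisation of the ideal of an effective divisor of rational points -/
theorem ffa_t_normalizedFactors_prod (hR : ¬ IsField R) :
    normalizedFactors (∏ j, RingHom.ker (p j : R →+* k)) =
      (Finset.univ : Finset (Fin g)).val.map fun j => RingHom.ker (p j : R →+* k) := by
  rw [Finset.prod_eq_multiset_prod, normalizedFactors_prod_eq]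
  · simp only [normalize_eq, Multiset.map_id']
  · intro P hP
    rw [Multiset.mem_map] at hP
    obtain ⟨j, -, rfl⟩ := hP
    exact (Ideal.prime_of_isPrime (ffa_t_ker_ne_bot hR (p j))
      (ffa_t_ker_isMaximal (p j)).isPrime).irreducible

/-- `dim_k R / ∏ 𝔪_j = g`. -/
theorem ffa_t_finrank_prod [IsAlgClosed k] [Algebra.FiniteType k R] (hR : ¬ IsField R) :
    Module.Finite k (R ⧸ ∏ j, RingHom.ker (p j : R →+* k)) ∧
      finrank k (R ⧸ ∏ j, RingHom.ker (p j : R →+* k)) = g := by
  have hres : ∀ P : Ideal R, P.IsMaximal → P ≠ ⊥ →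
      Function.Surjective (algebraMap k (R ⧸ P)) := fun P hP _ => ffa_t_res_surj P hP
  obtain ⟨h1, h2⟩ := ffd_q_finrank hres _ (ffa_t_prod_ne_bot p hR)
  refine ⟨h1, ?_⟩
  rw [h2, ffa_t_normalizedFactors_prod p hR, Multiset.card_map, Finset.card_val, Finset.card_univ,
    Fintype.card_fin]

/-- **The fibre lemma.**  An ideal containing the characteristic values `∏_j (r - p_j(r))` of all
`r ∈ R` contains the ideal `∏_j 𝔪_j` of the divisor `p_0 + ⋯ + p_{g-1}`. -/
theorem ffa_t_prod_le (hR : ¬ IsField R) (J : Ideal R)
    (hJ : ∀ r : R, ∏ j, (r - algebraMap k R (p j r)) ∈ J) :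
    ∏ j, RingHom.ker (p j : R →+* k) ≤ J := by
  classical
  have hI : (∏ j, RingHom.ker (p j : R →+* k)) ≠ ⊥ := ffa_t_prod_ne_bot p hR
  -- `J ≠ ⊥`: otherwise every element of `R` is a constant
  have hJ0 : J ≠ ⊥ := by
    intro h
    apply hR
    have hconst : ∀ r : R, ∃ c : k, algebraMap k R c = r := by
      intro r
      have := hJ r
      rw [h, Ideal.mem_bot, Finset.prod_eq_zero_iff] at this
      obtain ⟨j, -, hj⟩ := this
      exact ⟨p j r, (sub_eq_zero.1 hj).symm⟩
    exact MulEquiv.isField (Field.toIsField k)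
      (RingEquiv.ofBijective (algebraMap k R) ⟨(algebraMap k R).injective, hconst⟩).symm.toMulEquiv
  refine Ideal.le_of_dvd ?_
  rw [dvd_iff_normalizedFactors_le_normalizedFactors hJ0 hI, Multiset.le_iff_count]
  intro P
  by_cases hPmem : P ∈ normalizedFactors J
  swap
  · rw [Multiset.count_eq_zero_of_notMem hPmem]
    exact Nat.zero_le _
  have hPprime : Prime P := prime_of_normalized_factor P hPmem
  have hPne : P ≠ ⊥ := hPprime.ne_zero
  haveI hPip : P.IsPrime := Ideal.isPrime_of_prime hPprime
  have hPmax : P.IsMaximal := hPip.isMaximal hPne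
  let v : HeightOneSpectrum R := ⟨P, hPip, hPne⟩
  by_contra hlt
  push Not at hlt
  set e := Multiset.count P (normalizedFactors (∏ j, RingHom.ker (p j : R →+* k))) with he
  -- `J ≤ P ^ (e + 1)`
  have hJP : J ≤ P ^ (e + 1) := by
    apply Ideal.le_of_dvd
    rw [dvd_iff_normalizedFactors_le_normalizedFactors (pow_ne_zero _ hPne) hJ0,
      normalizedFactors_pow, normalizedFactors_irreducible hPprime.irreducible, normalize_eq,
      Multiset.nsmul_singleton, ← Multiset.le_count_iff_replicate_le]
    exact hlt
  -- a uniformiser at `P` which is a unit at the other points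
  obtain ⟨a, haP, haP2, hane⟩ : ∃ a : R, a ∈ P ∧ a ∉ P ^ 2 ∧
      ∀ j, RingHom.ker (p j : R →+* k) ≠ P → a ∉ RingHom.ker (p j : R →+* k) := by
    by_contra hno
    push Not at hno
    let f : Option (Fin g) → Ideal R := fun o => o.elim (P ^ 2) fun j => RingHom.ker (p j : R →+* k)
    let s : Finset (Option (Fin g)) :=
      Finset.insertNone (Finset.univ.filter fun j => RingHom.ker (p j : R →+* k) ≠ P)
    have hsub : (P : Set R) ⊆ ⋃ i ∈ (↑s : Set (Option (Fin g))), f i := by
      intro a ha
      by_cases h2 : a ∈ P ^ 2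
      · exact Set.mem_biUnion (show none ∈ (↑s : Set (Option (Fin g))) by simp [s]) h2
      · obtain ⟨j, hj, haj⟩ := hno a ha h2
        exact Set.mem_biUnion (show some j ∈ (↑s : Set (Option (Fin g))) by simp [s, hj]) haj
    rw [Ideal.subset_union_prime none none] at hsub
    · obtain ⟨i, his, hi⟩ := hsub
      cases i with
      | none =>
        have h1 : P ^ 2 < P := by simpa using Ideal.pow_succ_lt_pow hPne 1
        exact absurd hi (not_le_of_gt h1)
      | some j =>
        have hj : RingHom.ker (p j : R →+* k) ≠ P := by simpa [s] using his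
        exact hj ((hPmax.eq_of_le (ffa_t_ker_isMaximal (p j)).ne_top hi).symm)
    · intro i _ hi _
      cases i with
      | none => exact absurd rfl hi
      | some j => exact (ffa_t_ker_isMaximal (p j)).isPrime
  have ha0 : a ≠ 0 := fun h => haP2 (h ▸ Ideal.zero_mem _)
  have hfa : v.intValuation (∏ j, (a - algebraMap k R (p j a))) ≤ exp (-((e + 1 : ℕ) : ℤ)) :=
    (v.intValuation_le_pow_iff_mem _ _).2 (hJP (hJ a))
  have hterm : ∀ j, v.intValuation (a - algebraMap k R (p j a)) =
      if RingHom.ker (p j : R →+* k) = P then v.intValuation a else 1 := by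
    intro j
    split_ifs with hj
    · have hpa : p j a = 0 := by
        have : a ∈ RingHom.ker (p j : R →+* k) := hj ▸ haP
        exact this
      rw [hpa, map_zero, sub_zero]
    · rw [HeightOneSpectrum.intValuation_eq_one_iff]
      intro hmem
      have hc : algebraMap k R (p j a) ∈ P := by
        have := P.sub_mem haP hmem
        simpa using this
      have hc0 : p j a ≠ 0 := hane j hj
      exact hPip.ne_top (Ideal.eq_top_of_isUnit_mem _ hc ((IsUnit.mk0 _ hc0).map (algebraMap k R)))
  have hcard : (Finset.univ.filter fun j => RingHom.ker (p j : R →+* k) = P).card = e := by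
    rw [he, ffa_t_normalizedFactors_prod p hR, Multiset.count_map, Finset.card_def,
      Finset.filter_val]
    congr 1
    refine Multiset.filter_congr fun j _ => ?_
    exact eq_comm
  rw [map_prod, Finset.prod_congr rfl (fun j _ => hterm j), Finset.prod_ite, Finset.prod_const_one,
    mul_one, Finset.prod_const, hcard] at hfa
  have hva : exp (-2 : ℤ) < v.intValuation a := by
    rw [← not_le]
    intro h
    exact haP2 ((v.intValuation_le_pow_iff_mem a 2).1 (by simpa using h))
  have hv0 : v.intValuation a ≠ 0 := v.intValuation_ne_zero a ha0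
  have hlog : (-1 : ℤ) ≤ log (v.intValuation a) := by
    have := lt_log_of_exp_lt hva
    omega
  have h1 : exp (-(e : ℤ)) ≤ v.intValuation a ^ e := by
    rw [← exp_log hv0, ← exp_nsmul, exp_le_exp, nsmul_eq_mul]
    nlinarith
  have h2 := h1.trans hfa
  rw [exp_le_exp] at h2
  push_cast at h2
  omega

end Dedekind

end Fermat.Agent.FF
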