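/-
Project FF (S19), cell [ADD], leaf [A-T]: THE TAUTOLOGICAL DIVISOR.

`H = ff_symAlg PK = O[e_i(a(P_z))] ⊆ Map(M, Kb)`.  The ideal
`IH := {u ∈ H ⊗ 𝒜 | ∀ z, (ev_z ⊗ id) u ∈ ∏_j ker (ff_pt (PK z j))}` is a relative effective divisor
of degree `g` over `H` whose fibres at the generic points `ev_z` and at the closed points `evκ z`
are the ideals of the divisors `D_z` (`ff_ptIdeal Kb (PK z)`, `ff_ptIdeal κ (Pκ z)`).

Steps: `χ_a := Σ (-1)^i e_i(a) ⊗ a^(g-i) ∈ IH` (Vieta), so `(H ⊗ 𝒜) / IH` is `H`-finite; the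
generic fibres are quotients of dimension `≥ g`, the closed fibres have dimension `≤ g` (fibre
lemma `ffa_t_prod_le`); a finite module over the reduced semilocal ring `H` with these fibre
dimensions is free of rank `g` (`FF/Rank.lean`), and then both inclusions of fibre ideals are
equalities by counting dimensions (`ffd_q_eq_of_finrank_eq`).

Prefix `ffa_t_`.
-/
import Mathlib
import Fermat.Agent.FF.Add.Seams
import Fermat.Agent.FF.Add.TautFibre
import Fermat.Agent.FF.Add.BCEquiv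
import Fermat.Agent.FF.Add.Fibre
import Fermat.Agent.FF.Rank

set_option autoImplicit false
set_option linter.style.haveILetI false
set_option linter.unusedSectionVars false

noncomputable section

namespace Fermat.Agent.FF

open scoped TensorProduct
open Module Polynomial

/-! ### generalities -/

section Gen

/-- ring homomorphisms commute with the elementary symmetric functions of a multiset -/
theorem ffa_t_map_esymm {R S : Type*} [CommSemiring R] [CommSemiring S] (f : R →+* S)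
    (s : Multiset R) (n : ℕ) : f (s.esymm n) = (s.map f).esymm n := by
  rw [Multiset.esymm, Multiset.esymm, map_multiset_sum, Multiset.powersetCard_map,
    Multiset.map_map, Multiset.map_map]
  refine congrArg Multiset.sum (Multiset.map_congr rfl fun t _ => ?_)
  simp only [Function.comp_apply, map_multiset_prod]

/-- a vector space of dimension `≤ d` is spanned by `d` vectors -/
theorem ffa_t_exists_span_of_finrank_le {K V : Type*} [Field K] [AddCommGroup V] [Module K V]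
    [Module.Finite K V] (d : ℕ) (h : finrank K V ≤ d) :
    ∃ b : Fin d → V, ⊤ ≤ Submodule.span K (Set.range b) := by
  let e := Module.finBasis K V
  refine ⟨fun k => if hk : (k : ℕ) < finrank K V then e ⟨k, hk⟩ else 0, ?_⟩
  rw [← e.span_eq]
  apply Submodule.span_mono
  rintro _ ⟨i, rfl⟩
  exact ⟨⟨i, lt_of_lt_of_le i.2 h⟩, by simp⟩

/-- If all fibres of a finite module at the maximal ideals of a semilocal ring have dimension
`≤ d`, the module is generated by `d` elements (variant of `ffr_exists_span`). -/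
theorem ffa_t_exists_span_le {B : Type*} [CommRing B] [Finite (MaximalSpectrum B)] {N : Type*}
    [AddCommGroup N] [Module B N] [Module.Finite B N] (d : ℕ)
    (hmax : ∀ 𝔪 : Ideal B, 𝔪.IsMaximal → finrank (B ⧸ 𝔪) ((B ⧸ 𝔪) ⊗[B] N) ≤ d) :
    ∃ b : Fin d → N, ⊤ ≤ Submodule.span B (Set.range b) := by
  classical
  let := @Ideal.Quotient.field
  have hcop : Pairwise (Function.onFun IsCoprime fun P : MaximalSpectrum B => P.asIdeal) :=
    fun _ _ ne => Ideal.isCoprime_of_isMaximal (MaximalSpectrum.ext_iff.ne.mp ne)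
  have hb'ex : ∀ P : MaximalSpectrum B, ∃ b' : Fin d → (B ⧸ P.asIdeal) ⊗[B] N,
      ⊤ ≤ Submodule.span (B ⧸ P.asIdeal) (Set.range b') := fun P =>
    ffa_t_exists_span_of_finrank_le d (hmax P.asIdeal P.isMaximal)
  choose b' hb's using hb'ex
  choose b hb using fun i => Ideal.pi_tensorProductMk_quotient_surjective N _ hcop (b' · i)
  have hb' : ∀ (k : Fin d) (P : MaximalSpectrum B), (1 : B ⧸ P.asIdeal) ⊗ₜ[B] b k = b' P k :=
    fun k P => congrFun (hb k) P
  refine ⟨b, ?_⟩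
  set J : Ideal B := ⨅ P : MaximalSpectrum B, P.asIdeal with hJ
  have hJjac : J ≤ Ideal.jacobson ⊥ := by
    refine le_sInf fun 𝔪 h𝔪 => ?_
    exact iInf_le (fun P : MaximalSpectrum B => P.asIdeal) ⟨𝔪, h𝔪.2⟩
  refine Submodule.le_of_le_smul_of_le_jacobson_bot Module.Finite.fg_top hJjac ?_
  intro m _
  -- coefficients of `1 ⊗ m` in the spanning families
  have hcoef : ∀ P : MaximalSpectrum B, ∃ c : Fin d → B ⧸ P.asIdeal,
      ∑ k, c k • b' P k = (1 : B ⧸ P.asIdeal) ⊗ₜ[B] m := fun P =>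
    (Submodule.mem_span_range_iff_exists_fun _).1 (hb's P Submodule.mem_top)
  choose c hc using hcoef
  obtain ⟨r, hr⟩ : ∃ r : Fin d → B, ∀ (P : MaximalSpectrum B) (k : Fin d),
      Ideal.Quotient.mk P.asIdeal (r k) = c P k := by
    choose r hr using fun k => Ideal.pi_quotient_surjective hcop (fun P => c P k)
    exact ⟨r, fun P k => hr k P⟩
  have hker : m - ∑ k, r k • b k ∈ J • (⊤ : Submodule B N) := by
    rw [hJ, ← Ideal.ker_tensorProductMk_quotient N _ hcop, LinearMap.mem_ker]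
    funext P
    change (1 : B ⧸ P.asIdeal) ⊗ₜ[B] (m - ∑ k, r k • b k) = 0
    rw [TensorProduct.tmul_sub, TensorProduct.tmul_sum, sub_eq_zero, ← hc P]
    refine Finset.sum_congr rfl fun k _ => ?_
    rw [← hr P k, TensorProduct.tmul_smul, hb' k P, ← Ideal.Quotient.algebraMap_eq,
      algebraMap_smul]
  have hm : m = ∑ k, r k • b k + (m - ∑ k, r k • b k) := by abel
  rw [hm]
  exact Submodule.add_mem_sup
    (Submodule.sum_mem _ fun k _ => Submodule.smul_mem _ _ (Submodule.subset_span ⟨k, rfl⟩)) hker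

/-- an ideal containing `I` with (finite) codimension at least that of `I` equals `I` -/
theorem ffa_t_ideal_eq_of_finrank_le {k R : Type*} [Field k] [CommRing R] [Algebra k R]
    {I J : Ideal R} (hIJ : I ≤ J) (hfin : Module.Finite k (R ⧸ I))
    (h : finrank k (R ⧸ I) ≤ finrank k (R ⧸ J)) : I = J := by
  have hsurj : Function.Surjective (Ideal.Quotient.factorₐ k hIJ).toLinearMap :=
    Ideal.Quotient.factor_surjective hIJ
  haveI : Module.Finite k (R ⧸ J) := Module.Finite.of_surjective _ hsurj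
  have hb := OrzechProperty.bijective_of_surjective_of_finrank_le _ hsurj h
  refine le_antisymm hIJ fun x hx => ?_
  have h0 : (Ideal.Quotient.factorₐ k hIJ).toLinearMap (Ideal.Quotient.mk I x) = 0 :=
    Ideal.Quotient.eq_zero_iff_mem.2 hx
  exact Ideal.Quotient.eq_zero_iff_mem.1 (hb.1 (h0.trans (map_zero _).symm))

/-- monotonicity of the codimension -/
theorem ffa_t_finrank_quot_le {k R : Type*} [Field k] [CommRing R] [Algebra k R]
    {I J : Ideal R} (hIJ : I ≤ J) (hfin : Module.Finite k (R ⧸ I)) :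
    Module.Finite k (R ⧸ J) ∧ finrank k (R ⧸ J) ≤ finrank k (R ⧸ I) := by
  have hsurj : Function.Surjective (Ideal.Quotient.factorₐ k hIJ).toLinearMap :=
    Ideal.Quotient.factor_surjective hIJ
  exact ⟨Module.Finite.of_surjective _ hsurj, LinearMap.finrank_le_finrank_of_surjective hsurj⟩

/-- **Vieta** in a commutative ring. -/
theorem ffa_t_vieta {R : Type*} [CommRing R] (s : Multiset R) (x : R) :
    (s.map fun t => x - t).prod =
      ∑ j ∈ Finset.range (Multiset.card s + 1), (-1) ^ j * (s.esymm j * x ^ (Multiset.card s - j)) := by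
  have h := congrArg (Polynomial.eval x) (Multiset.prod_X_sub_X_eq_sum_esymm s)
  rw [Polynomial.eval_multiset_prod, Multiset.map_map, Polynomial.eval_finsetSum] at h
  simpa using h

end Gen

/-! ### points of a fibre -/

section Pt

variable {O : Type} [CommRing O] {𝒜 : Type} [CommRing 𝒜] [Algebra O 𝒜]
  {k : Type} [Field k] [Algebra O k] {g : ℕ}

theorem ffa_t_pt_tmul (q : 𝒜 →ₐ[O] k) (c : k) (a : 𝒜) : ff_pt k q (c ⊗ₜ[O] a) = c * q a := by
  simp [ff_pt]

theorem ffa_t_ptIdeal_eq (q : Fin g → 𝒜 →ₐ[O] k) :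
    ff_ptIdeal k q = ∏ j, RingHom.ker ((ff_pt k (q j) : k ⊗[O] 𝒜 →ₐ[k] k) : k ⊗[O] 𝒜 →+* k) :=
  rfl

/-- the characteristic value of `1 ⊗ a` lies in the ideal of the divisor -/
theorem ffa_t_charval_mem (q : Fin g → 𝒜 →ₐ[O] k) (a : 𝒜) :
    ∏ j, ((1 : k) ⊗ₜ[O] a - algebraMap k (k ⊗[O] 𝒜) (q j a)) ∈ ff_ptIdeal k q := by
  rw [ffa_t_ptIdeal_eq]
  refine Ideal.prod_mem_prod fun j _ => ?_
  have h := ffa_t_sub_mem_ker (ff_pt k (q j)) ((1 : k) ⊗ₜ[O] a)
  rwa [ffa_t_pt_tmul, one_mul] at h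

/-- over a base with `O → k` onto, every element of `k ⊗ 𝒜` is of the form `1 ⊗ a` -/
theorem ffa_t_exists_one_tmul (hsurj : Function.Surjective (algebraMap O k)) (r : k ⊗[O] 𝒜) :
    ∃ a : 𝒜, r = (1 : k) ⊗ₜ[O] a := by
  induction r using TensorProduct.induction_on with
  | zero => exact ⟨0, (TensorProduct.tmul_zero _ _).symm⟩
  | tmul c x =>
    obtain ⟨o, rfl⟩ := hsurj c
    exact ⟨o • x, by rw [Algebra.algebraMap_eq_smul_one, TensorProduct.smul_tmul]⟩
  | add r₁ r₂ h₁ h₂ =>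
    obtain ⟨a₁, rfl⟩ := h₁
    obtain ⟨a₂, rfl⟩ := h₂
    exact ⟨a₁ + a₂, (TensorProduct.tmul_add _ _ _).symm⟩

end Pt

/-! ### the characteristic elements -/

section Chi

variable {O : Type} [CommRing O] {𝒜 : Type} [CommRing 𝒜] [Algebra O 𝒜]
  {B : Type} [CommRing B] [Algebra O B] (g : ℕ) (e : 𝒜 → ℕ → B)

theorem ffa_t_neg_one_pow_tmul (j : ℕ) (c : B) (y : 𝒜) :
    ((-1) ^ j * c) ⊗ₜ[O] y = (-1) ^ j * (c ⊗ₜ[O] y) := by
  rcases Nat.even_or_odd j with h | h
  · rw [h.neg_one_pow, h.neg_one_pow, one_mul, one_mul]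
  · rw [h.neg_one_pow, h.neg_one_pow, neg_one_mul, neg_one_mul, TensorProduct.neg_tmul]

/-- the characteristic element `χ_a = Σ (-1)^i e_i(a) ⊗ a^(g-i)` of `B ⊗ 𝒜` -/
def ffa_t_chi (a : 𝒜) : B ⊗[O] 𝒜 :=
  ∑ i ∈ Finset.range (g + 1), ((-1) ^ i * e a i) ⊗ₜ[O] (a ^ (g - i))

/-- **Vieta**: under a point `f` of `B` at which `e_i(a)` specialises to the `e_i` of the values
`q j a`, the characteristic element specialises to `∏_j (1 ⊗ a - q_j(a))`. -/
theorem ffa_t_bc_chi {k : Type} [Field k] [Algebra O k] (f : B →ₐ[O] k)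
    (q : Fin g → 𝒜 →ₐ[O] k) (a : 𝒜)
    (hf : ∀ i, f (e a i) = ((Finset.univ : Finset (Fin g)).val.map fun j => q j a).esymm i) :
    ffa_bc 𝒜 f (ffa_t_chi g e a) =
      ∏ j, ((1 : k) ⊗ₜ[O] a - algebraMap k (k ⊗[O] 𝒜) (q j a)) := by
  have hcard : Multiset.card ((Finset.univ : Finset (Fin g)).val.map fun j =>
      algebraMap k (k ⊗[O] 𝒜) (q j a)) = g := by simp
  have h := ffa_t_vieta ((Finset.univ : Finset (Fin g)).val.map fun j =>
    algebraMap k (k ⊗[O] 𝒜) (q j a)) ((1 : k) ⊗ₜ[O] a)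
  rw [Multiset.map_map, hcard] at h
  rw [Finset.prod_eq_multiset_prod]
  refine Eq.trans ?_ h.symm
  rw [ffa_t_chi, map_sum]
  refine Finset.sum_congr rfl fun i _ => ?_
  have h2 : ((Finset.univ : Finset (Fin g)).val.map fun j =>
      algebraMap k (k ⊗[O] 𝒜) (q j a)) =
      ((Finset.univ : Finset (Fin g)).val.map fun j => q j a).map (algebraMap k (k ⊗[O] 𝒜)) := by
    rw [Multiset.map_map]; rfl
  rw [ffa_bc, Algebra.TensorProduct.map_tmul, map_mul, map_pow, map_neg, map_one, hf i,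
    ffa_t_neg_one_pow_tmul, h2, ← ffa_t_map_esymm, Algebra.TensorProduct.algebraMap_apply,
    Algebra.algebraMap_self, RingHom.id_apply, AlgHom.coe_id, id_eq,
    Algebra.TensorProduct.tmul_pow, one_pow, Algebra.TensorProduct.tmul_mul_tmul, mul_one, one_mul]

/-- a polynomial `Σ c_i X^(g-i)` with `c_0 = 1` is monic -/
theorem ffa_t_monic {R : Type*} [CommRing R] (c : ℕ → R) (h0 : c 0 = 1) :
    (∑ i ∈ Finset.range (g + 1), C (c i) * X ^ (g - i)).Monic := by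
  apply Polynomial.monic_of_natDegree_le_of_coeff_eq_one g
  · apply Polynomial.natDegree_sum_le_of_forall_le
    intro i _
    exact (Polynomial.natDegree_C_mul_X_pow_le _ _).trans (Nat.sub_le _ _)
  · rw [Polynomial.finsetSum_coeff, Finset.sum_eq_single 0]
    · simp [h0]
    · intro i hi hi0
      rw [Polynomial.coeff_C_mul_X_pow, if_neg]
      have := Finset.mem_range.1 hi
      omega
    · simp

/-- if an ideal `I` of `B ⊗ 𝒜` contains all the characteristic elements, the quotient is a finite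
`B`-module. -/
theorem ffa_t_finite [Algebra.FiniteType O 𝒜] (I : Ideal (B ⊗[O] 𝒜)) (he0 : ∀ a, e a 0 = 1)
    (hchi : ∀ a, ffa_t_chi g e a ∈ I) : Module.Finite B ((B ⊗[O] 𝒜) ⧸ I) := by
  haveI : Algebra.FiniteType B ((B ⊗[O] 𝒜) ⧸ I) :=
    Algebra.FiniteType.of_surjective (Ideal.Quotient.mkₐ B I) (Ideal.Quotient.mkₐ_surjective B I)
  have key : ∀ a : 𝒜, IsIntegral B (Ideal.Quotient.mk I ((1 : B) ⊗ₜ[O] a)) := by
    intro a
    refine ⟨∑ i ∈ Finset.range (g + 1), C ((-1) ^ i * e a i) * X ^ (g - i),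
      ffa_t_monic g (fun i => (-1) ^ i * e a i) (by simp [he0]), ?_⟩
    have h0 : Ideal.Quotient.mk I (ffa_t_chi g e a) = 0 := Ideal.Quotient.eq_zero_iff_mem.2 (hchi a)
    rw [← h0, ffa_t_chi, map_sum, Polynomial.eval₂_finsetSum]
    refine Finset.sum_congr rfl fun i _ => ?_
    rw [Polynomial.eval₂_mul, Polynomial.eval₂_C, Polynomial.eval₂_pow, Polynomial.eval₂_X,
      IsScalarTower.algebraMap_apply B (B ⊗[O] 𝒜) ((B ⊗[O] 𝒜) ⧸ I), Ideal.Quotient.algebraMap_eq,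
      Algebra.TensorProduct.algebraMap_apply,
      Algebra.algebraMap_self, RingHom.id_apply, ← map_pow, ← map_mul,
      Algebra.TensorProduct.tmul_pow, one_pow, Algebra.TensorProduct.tmul_mul_tmul, mul_one,
      one_mul]
  haveI : Algebra.IsIntegral B ((B ⊗[O] 𝒜) ⧸ I) := by
    rw [Algebra.isIntegral_def]
    intro x
    obtain ⟨u, rfl⟩ := Ideal.Quotient.mk_surjective x
    induction u using TensorProduct.induction_on with
    | zero => rw [map_zero]; exact isIntegral_zero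
    | tmul b a =>
      have h1 : (b ⊗ₜ[O] a : B ⊗[O] 𝒜) = b • ((1 : B) ⊗ₜ[O] a) := by
        rw [TensorProduct.smul_tmul', smul_eq_mul, mul_one]
      have h2 : Ideal.Quotient.mk I (b • ((1 : B) ⊗ₜ[O] a)) =
          b • Ideal.Quotient.mk I ((1 : B) ⊗ₜ[O] a) := rfl
      rw [h1, h2]
      exact IsIntegral.smul b (key a)
    | add u v hu hv => rw [map_add]; exact hu.add hv
  exact Algebra.IsIntegral.finite

end Chi

/-! ### the tautological ideal -/

section Taut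

variable {O : Type} [CommRing O] {𝒜 : Type} [CommRing 𝒜] [Algebra O 𝒜]
  {B : Type} [CommRing B] [Algebra O B]
  {Kb : Type} [Field Kb] [Algebra O Kb] {M : Type} {g : ℕ}
  (evK : M → B →ₐ[O] Kb) (PK : M → Fin g → 𝒜 →ₐ[O] Kb)

/-- the tautological ideal: the elements of `B ⊗ 𝒜` vanishing on `D_z` in the fibre at every `z` -/
def ffa_t_IH : Ideal (B ⊗[O] 𝒜) :=
  ⨅ z, (ff_ptIdeal Kb (PK z)).comap (ffa_bc 𝒜 (evK z))

theorem ffa_t_chi_mem (e : 𝒜 → ℕ → B)
    (heK : ∀ z a i, evK z (e a i) =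
      ((Finset.univ : Finset (Fin g)).val.map fun j => PK z j a).esymm i) (a : 𝒜) :
    ffa_t_chi g e a ∈ ffa_t_IH evK PK := by
  rw [ffa_t_IH, Ideal.mem_iInf]
  intro z
  rw [Ideal.mem_comap, ffa_t_bc_chi g e (evK z) (PK z) a (fun i => heK z a i)]
  exact ffa_t_charval_mem (PK z) a

theorem ffa_t_fibre_le (z : M) : ffa_fibre (evK z) (ffa_t_IH evK PK) ≤ ff_ptIdeal Kb (PK z) :=
  Ideal.map_le_iff_le_comap.2 (iInf_le _ z)

end Taut

/-! ### the abstract theorem -/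

section Abs

variable {O : Type} [CommRing O] {𝒜 : Type} [CommRing 𝒜] [Algebra O 𝒜]
  {B : Type} [CommRing B] [Algebra O B]

/-- the fibre of `(B ⊗ 𝒜)/I` at a `B`-field `k` is `(k ⊗ 𝒜)/I_k` -/
theorem ffa_t_fibre_facts {k : Type} [Field k] [Algebra O k] [Algebra B k] [IsScalarTower O B k]
    (I : Ideal (B ⊗[O] 𝒜)) [Module.Finite B ((B ⊗[O] 𝒜) ⧸ I)] :
    Module.Finite k ((k ⊗[O] 𝒜) ⧸ ffa_fibre (IsScalarTower.toAlgHom O B k) I) ∧
      finrank k (k ⊗[B] ((B ⊗[O] 𝒜) ⧸ I)) =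
        finrank k ((k ⊗[O] 𝒜) ⧸ ffa_fibre (IsScalarTower.toAlgHom O B k) I) :=
  ⟨Module.Finite.equiv (ffa_bce_linearEquiv I), (ffa_bce_linearEquiv I).finrank_eq⟩

/-- the same, for a point `f : B → k` (the algebra structure of `k` over `B` being `f`) -/
theorem ffa_t_fibre_facts' {k : Type} [Field k] [Algebra O k] (f : B →ₐ[O] k)
    (I : Ideal (B ⊗[O] 𝒜)) [Module.Finite B ((B ⊗[O] 𝒜) ⧸ I)] :
    letI : Algebra B k := f.toRingHom.toAlgebra
    Module.Finite k ((k ⊗[O] 𝒜) ⧸ ffa_fibre f I) ∧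
      finrank k (k ⊗[B] ((B ⊗[O] 𝒜) ⧸ I)) = finrank k ((k ⊗[O] 𝒜) ⧸ ffa_fibre f I) := by
  letI : Algebra B k := f.toRingHom.toAlgebra
  haveI : IsScalarTower O B k := IsScalarTower.of_algebraMap_eq fun o => (f.commutes o).symm
  have hf : IsScalarTower.toAlgHom O B k = f := AlgHom.ext fun _ => rfl
  have h := ffa_t_fibre_facts (k := k) I
  rwa [hf] at h

variable {Kb : Type} [Field Kb] [IsAlgClosed Kb] [Algebra O Kb]
  {κ : Type} [Field κ] [IsAlgClosed κ] [Algebra O κ]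

/-- **The tautological divisor, abstract form.**  `B` a nice base with generic points `evK z` and
closed points `evκ z`; `e a i ∈ B` elements specialising at `evK z`, `evκ z` to the elementary
symmetric functions of the values of `a` at the points `PK z j`, `Pκ z j`.  Then the ideal of the
elements of `B ⊗ 𝒜` vanishing on `D_z` in the generic fibre at every `z` is a relative effective
divisor of degree `g` with the expected fibres. -/
theorem ffa_t_abs [Algebra.FiniteType O 𝒜] [Nontrivial B]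
    (hsurj : Function.Surjective (algebraMap O κ))
    (hdK : IsDedekindDomain (Kb ⊗[O] 𝒜)) (hnK : ¬ IsField (Kb ⊗[O] 𝒜))
    (hdκ : IsDedekindDomain (κ ⊗[O] 𝒜)) (hnκ : ¬ IsField (κ ⊗[O] 𝒜))
    {M : Type} (evK : M → B →ₐ[O] Kb) (evκ : M → B →ₐ[O] κ)
    (nice : ffa_IsNice O Kb κ B M evK evκ) (g : ℕ)
    (PK : M → Fin g → 𝒜 →ₐ[O] Kb) (Pκ : M → Fin g → 𝒜 →ₐ[O] κ) (e : 𝒜 → ℕ → B)
    (he0 : ∀ a, e a 0 = 1)
    (heK : ∀ z a i, evK z (e a i) =
      ((Finset.univ : Finset (Fin g)).val.map fun j => PK z j a).esymm i)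
    (heκ : ∀ z a i, evκ z (e a i) =
      ((Finset.univ : Finset (Fin g)).val.map fun j => Pκ z j a).esymm i) :
    ffa_IsRelDiv O 𝒜 B (ffa_t_IH evK PK) g ∧
      (∀ z, ffa_fibre (evK z) (ffa_t_IH evK PK) = ff_ptIdeal Kb (PK z)) ∧
      (∀ z, ffa_fibre (evκ z) (ffa_t_IH evK PK) = ff_ptIdeal κ (Pκ z)) := by
  classical
  haveI := nice.finΞ
  have hchi : ∀ a, ffa_t_chi g e a ∈ ffa_t_IH evK PK := ffa_t_chi_mem evK PK e heK
  haveI hfinQ : Module.Finite B ((B ⊗[O] 𝒜) ⧸ ffa_t_IH evK PK) :=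
    ffa_t_finite g e _ he0 hchi
  -- colengths of the ideals of the divisors
  have hcolK : ∀ z, Module.Finite Kb ((Kb ⊗[O] 𝒜) ⧸ ff_ptIdeal Kb (PK z)) ∧
      finrank Kb ((Kb ⊗[O] 𝒜) ⧸ ff_ptIdeal Kb (PK z)) = g := by
    intro z
    haveI := hdK
    rw [ffa_t_ptIdeal_eq]
    exact ffa_t_finrank_prod (fun j => ff_pt Kb (PK z j)) hnK
  have hcolκ : ∀ z, Module.Finite κ ((κ ⊗[O] 𝒜) ⧸ ff_ptIdeal κ (Pκ z)) ∧
      finrank κ ((κ ⊗[O] 𝒜) ⧸ ff_ptIdeal κ (Pκ z)) = g := by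
    intro z
    haveI := hdκ
    rw [ffa_t_ptIdeal_eq]
    exact ffa_t_finrank_prod (fun j => ff_pt κ (Pκ z j)) hnκ
  -- closed fibres: `Iκ_z ≤ Jκ_z`
  have hleκ : ∀ z, ff_ptIdeal κ (Pκ z) ≤ ffa_fibre (evκ z) (ffa_t_IH evK PK) := by
    intro z
    haveI := hdκ
    rw [ffa_t_ptIdeal_eq]
    refine ffa_t_prod_le (fun j => ff_pt κ (Pκ z j)) hnκ _ fun r => ?_
    obtain ⟨a, rfl⟩ := ffa_t_exists_one_tmul hsurj r
    have h1 := ffa_t_bc_chi g e (evκ z) (Pκ z) a (fun i => heκ z a i)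
    have h2 : ffa_bc 𝒜 (evκ z) (ffa_t_chi g e a) ∈ ffa_fibre (evκ z) (ffa_t_IH evK PK) :=
      Ideal.mem_map_of_mem _ (hchi a)
    rw [h1] at h2
    refine (congrArg (· ∈ _) (Finset.prod_congr rfl fun j _ => ?_)).mp h2
    show _ = (1 : κ) ⊗ₜ[O] a - algebraMap κ (κ ⊗[O] 𝒜) (ff_pt κ (Pκ z j) ((1 : κ) ⊗ₜ[O] a))
    rw [ffa_t_pt_tmul, one_mul]
  -- closed fibre dimensions `≤ g`
  have hdimκ : ∀ z, letI : Algebra B κ := (evκ z).toRingHom.toAlgebra
      finrank κ (κ ⊗[B] ((B ⊗[O] 𝒜) ⧸ ffa_t_IH evK PK)) ≤ g := by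
    intro z
    letI : Algebra B κ := (evκ z).toRingHom.toAlgebra
    obtain ⟨_, h2⟩ := ffa_t_fibre_facts' (evκ z) (ffa_t_IH evK PK)
    rw [h2]
    exact (ffa_t_finrank_quot_le (hleκ z) (hcolκ z).1).2.trans (hcolκ z).2.le
  -- `B` is semilocal
  haveI : Finite (MaximalSpectrum B) := by
    choose t ht using nice.max
    refine Finite.of_injective (fun P : MaximalSpectrum B => t P.asIdeal P.isMaximal)
      fun P P' h => ?_
    apply MaximalSpectrum.ext
    rw [ht P.asIdeal P.isMaximal, ht P'.asIdeal P'.isMaximal]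
    exact congrArg (fun z => RingHom.ker (evκ z)) h
  -- `g` generators
  obtain ⟨b, hb⟩ := ffa_t_exists_span_le (B := B) (N := (B ⊗[O] 𝒜) ⧸ ffa_t_IH evK PK) g (by
    intro 𝔪 h𝔪
    obtain ⟨z, rfl⟩ := nice.max 𝔪 h𝔪
    haveI := h𝔪
    letI : Algebra B κ := (evκ z).toRingHom.toAlgebra
    exact (ffr_fibre_quotient (M := (B ⊗[O] 𝒜) ⧸ ffa_t_IH evK PK) (RingHom.ker (evκ z)) κ
      (fun x hx => hx)).symm.trans_le (hdimκ z))
  -- generic fibre dimensions `= g`
  have hdimK : ∀ z, letI : Algebra B Kb := (evK z).toRingHom.toAlgebra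
      finrank Kb (Kb ⊗[B] ((B ⊗[O] 𝒜) ⧸ ffa_t_IH evK PK)) = g := by
    intro z
    letI : Algebra B Kb := (evK z).toRingHom.toAlgebra
    obtain ⟨h1, h2⟩ := ffa_t_fibre_facts' (evK z) (ffa_t_IH evK PK)
    apply le_antisymm
    · have hs : Submodule.span Kb (Set.range fun i => (1 : Kb) ⊗ₜ[B] b i) = ⊤ :=
        top_le_iff.1 (ffr_span_tmul hb Kb)
      have h3 := finrank_range_le_card (R := Kb) (fun i => (1 : Kb) ⊗ₜ[B] b i)
      rw [Set.finrank, hs, finrank_top, Fintype.card_fin] at h3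
      exact h3
    · rw [h2]
      exact (hcolK z).2.ge.trans (ffa_t_finrank_quot_le (ffa_t_fibre_le evK PK z) h1).2
  -- the generators are independent
  have hli : LinearIndependent B b := by
    refine ffr_linearIndependent.{0, 0, 0} hb (Set.range fun z => RingHom.ker (evK z)) ?_ ?_
    · intro c hc
      exact nice.inj c fun z => hc _ ⟨z, rfl⟩
    · rintro _ ⟨z, rfl⟩
      exact ⟨Kb, inferInstance, (evK z).toRingHom.toAlgebra, fun x hx => hx, hdimK z⟩
  let bas : Basis (Fin g) B ((B ⊗[O] 𝒜) ⧸ ffa_t_IH evK PK) := Basis.mk hli hb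
  have hrel : ffa_IsRelDiv O 𝒜 B (ffa_t_IH evK PK) g :=
    ⟨hfinQ, Module.Free.of_basis bas, by rw [Module.finrank_eq_card_basis bas, Fintype.card_fin]⟩
  refine ⟨hrel, fun z => ?_, fun z => ?_⟩
  · letI : Algebra B Kb := (evK z).toRingHom.toAlgebra
    obtain ⟨h1, h2⟩ := ffa_t_fibre_facts' (evK z) (ffa_t_IH evK PK)
    refine ffa_t_ideal_eq_of_finrank_le (ffa_t_fibre_le evK PK z) h1 ?_
    rw [← h2, hdimK z, (hcolK z).2]
  · letI : Algebra B κ := (evκ z).toRingHom.toAlgebra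
    obtain ⟨h1, h2⟩ := ffa_t_fibre_facts' (evκ z) (ffa_t_IH evK PK)
    refine (ffa_t_ideal_eq_of_finrank_le (hleκ z) (hcolκ z).1 ?_).symm
    have h3 : finrank κ (κ ⊗[B] ((B ⊗[O] 𝒜) ⧸ ffa_t_IH evK PK)) = g := by
      rw [Module.finrank_eq_card_basis (bas.baseChange κ), Fintype.card_fin]
    rw [(hcolκ z).2, ← h2, h3]

end Abs

/-! ### the instance `B = H = ff_symAlg PK` -/

section Inst

variable {O : Type} [CommRing O] {𝒜 : Type} [CommRing 𝒜] [Algebra O 𝒜]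
  {Kb : Type} [Field Kb] [Algebra O Kb] {M : Type} {g : ℕ}
  (PK : M → Fin g → 𝒜 →ₐ[O] Kb)

/-- `e_i(a) ∈ H` -/
def ffa_t_sym (a : 𝒜) (i : ℕ) : ↥(ff_symAlg PK) :=
  ⟨ff_symFun PK a i, Algebra.subset_adjoin ⟨a, i, rfl⟩⟩

theorem ffa_t_ev_sym (z : M) (a : 𝒜) (i : ℕ) :
    ffa_ev PK z (ffa_t_sym PK a i) =
      ((Finset.univ : Finset (Fin g)).val.map fun j => PK z j a).esymm i := rfl

theorem ffa_t_sym_zero (a : 𝒜) : ffa_t_sym PK a 0 = 1 := by
  apply Subtype.ext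
  funext z
  simp [ffa_t_sym, ff_symFun, Multiset.esymm]

theorem ffa_t_evκ_sym {κ : Type} [Field κ] [Algebra O κ] (Pκ : M → Fin g → 𝒜 →ₐ[O] κ)
    (Av : Subring Kb) (res : ↥Av →+* κ) (hH : ffa_HHyp PK Pκ Av res)
    (evκ : M → ↥(ff_symAlg PK) →ₐ[O] κ)
    (hev : ∀ (z : M) (φ : ↥(ff_symAlg PK)) (h : (φ : M → Kb) z ∈ Av), evκ z φ = res ⟨_, h⟩)
    (z : M) (a : 𝒜) (i : ℕ) :
    evκ z (ffa_t_sym PK a i) =
      ((Finset.univ : Finset (Fin g)).val.map fun j => Pκ z j a).esymm i := by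
  classical
  set s' : Multiset ↥Av := (Finset.univ : Finset (Fin g)).val.map
    (fun j => (⟨PK z j a, (hH.resP z j a).choose⟩ : ↥Av)) with hs'
  have h1 : ((ffa_t_sym PK a i : ↥(ff_symAlg PK)) : M → Kb) z = Av.subtype (s'.esymm i) := by
    rw [ffa_t_map_esymm, hs', Multiset.map_map]
    rfl
  have h2 : ((ffa_t_sym PK a i : ↥(ff_symAlg PK)) : M → Kb) z ∈ Av := by
    rw [h1]; exact (s'.esymm i).2
  rw [hev z _ h2]
  have h3 : (⟨_, h2⟩ : ↥Av) = s'.esymm i := Subtype.ext h1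
  rw [h3, ffa_t_map_esymm, hs', Multiset.map_map]
  congr 1
  refine Multiset.map_congr rfl fun j _ => ?_
  exact (hH.resP z j a).choose_spec

/-- **[T]**, with the two explicit extra hypotheses `[Nonempty M]` (for `M = ∅` the algebra `H` is
the zero ring and the statement fails for `g ≠ 1`) and `¬ IsField (Kb ⊗ 𝒜)` (a consequence of the
package, see [A-RES]/[FIB]). -/
theorem ffa_t_main
    (O : Type) [CommRing O] [IsDomain O] [IsDiscreteValuationRing O]
    (𝒜 : Type) [CommRing 𝒜] [Algebra O 𝒜] (C : Type) [CommRing C] [Algebra O C] (π : O)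
    (Kb : Type) [Field Kb] [IsAlgClosed Kb] [Algebra O Kb]
    (κ : Type) [Field κ] [IsAlgClosed κ] [Algebra O κ]
    (Λ : ℕ → Submodule O 𝒜) (lead : ∀ m, ↥(Λ m) →ₗ[O] C) (g n m0 c0 : ℕ)
    (pkg : ff_IsPkg O 𝒜 C π Kb κ Λ lead g n m0 c0) (hnK : ¬ IsField (Kb ⊗[O] 𝒜))
    (M : Type) [Finite M] [Nonempty M]
    (PK : M → Fin g → 𝒜 →ₐ[O] Kb) (Pκ : M → Fin g → 𝒜 →ₐ[O] κ)
    (Av : Subring Kb) (res : ↥Av →+* κ) (hH : ffa_HHyp PK Pκ Av res)
    (evκ : M → ↥(ff_symAlg PK) →ₐ[O] κ)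
    (hev : ∀ (z : M) (φ : ↥(ff_symAlg PK)) (h : (φ : M → Kb) z ∈ Av), evκ z φ = res ⟨_, h⟩)
    (nice : ffa_IsNice O Kb κ ↥(ff_symAlg PK) M (ffa_ev PK) evκ) :
    ∃ IH : Ideal (↥(ff_symAlg PK) ⊗[O] 𝒜), ffa_IsRelDiv O 𝒜 ↥(ff_symAlg PK) IH g ∧
      (∀ z, ffa_fibre (ffa_ev PK z) IH = ff_ptIdeal Kb (PK z)) ∧
      (∀ z, ffa_fibre (evκ z) IH = ff_ptIdeal κ (Pκ z)) := by
  haveI := pkg.ft
  haveI : Nontrivial ↥(ff_symAlg PK) :=
    (ffa_ev PK (Classical.arbitrary M)).toRingHom.domain_nontrivial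
  exact ⟨ffa_t_IH (ffa_ev PK) PK,
    ffa_t_abs pkg.res_surj pkg.dedK hnK pkg.dedκ pkg.notFieldκ (ffa_ev PK) evκ nice g PK Pκ
      (fun a i => ffa_t_sym PK a i) (ffa_t_sym_zero PK) (fun z a i => ffa_t_ev_sym PK z a i)
      (ffa_t_evκ_sym PK Pκ Av res hH evκ hev)⟩

/-- **[T]** the tautological divisor. -/
theorem ffa_seamT : ffa_SeamT := by
  intro O _ _ _ 𝒜 _ _ C _ _ π Kb _ _ _ κ _ _ _ Λ lead g n m0 c0 pkg M _ _ PK Pκ Av res hH evκ hev nice
  exact ffa_t_main O 𝒜 C π Kb κ Λ lead g n m0 c0 pkg (ffa_fib_notFieldK pkg) M PK Pκ Av res hH evκ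
    hev nice

end Inst

end Fermat.Agent.FF
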