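/-
Project FF (S19), cell [ADD]: THE CLOSING FILE.  Owner: helper27 (FF architect).

`ffa_seamADD_of_res : ffa_SeamRES → ff_SeamADD` — every leaf of `[ADD]` except `[A-RES]` is a closed
theorem (`ffa_seamORD` helper24, `ffa_seamT` helper22, `ffa_seamBC`/`ffa_seamCHAR` helper26,
`ffa_seamMUL` helper25, `ffa_main` helper27).
-/
import Mathlib
import Fermat.Agent.FF.Add.Main
import Fermat.Agent.FF.Add.Ord
import Fermat.Agent.FF.Add.Taut
import Fermat.Agent.FF.Add.BC
import Fermat.Agent.FF.Add.MulSeam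
import Fermat.Agent.FF.Add.Char

set_option autoImplicit false

namespace Fermat.Agent.FF

/-- **[ADD] modulo [A-RES].** -/
theorem ffa_seamADD_of_res (hRES : ffa_SeamRES) : ff_SeamADD :=
  ffa_main ffa_seamORD ffa_seamT ffa_seamBC ffa_seamMUL hRES ffa_seamCHAR

end Fermat.Agent.FF
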