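/-
Project FF (S19), cell [ADD], leaf [A-MUL] (helper25): over a nice base the product of two relative
effective divisors is a relative effective divisor, and the degrees add.

Route (fibrewise; no local principality): `M := (B ⊗ 𝒜)/(I₁ I₂)`.
* `ffa_mul_finite`   : `M` is `B`-finite (it is a `B`-algebra of finite type, integral over `B`);
* `ffa_mul_fibre_equiv` : the fibre of `(B ⊗ 𝒜)/J` at a point `ξ : B → k` is `(k ⊗ 𝒜)/(fibre ξ J)`;
* `ffa_mul_colength` : colength is additive on products in a Dedekind algebra of finite type over an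
                       algebraically closed field which is not finite-dimensional (helper5's
                       `ffd_q_finrank_mul` + Zariski's lemma);
* `ffa_mul_not_finite_generic` : `Kb ⊗ 𝒜` is infinite-dimensional because `κ ⊗ 𝒜` is (lift
                       independent elements, Nakayama, flatness of `Kb` over the DVR `O`);
* `ffa_mul_point`    : at every point `ξ : B → k` (`k = Kb, κ`) the fibre of `M` has dimension
                       `d₁ + d₂`;
* **`ffa_seamMUL : ffa_SeamMUL`** by helper13's `ffr_exists_basis'` over the reduced semilocal `B`.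
Prefix `ffa_mul_`.
-/
import Mathlib
import Fermat.Agent.FF.Add.Seams
import Fermat.Agent.FF.Add.BC
import Fermat.Agent.FF.Rank
import Fermat.Agent.FF.Dict.Quot

set_option autoImplicit false
set_option linter.unusedSectionVars false
set_option linter.style.haveILetI false

noncomputable section

namespace Fermat.Agent.FF

open scoped TensorProduct
open Module Polynomial

section Finite

variable {B R : Type*} [CommRing B] [CommRing R] [Algebra B R] [Algebra.FiniteType B R]

/-- if `R/I₁` and `R/I₂` are finite over `B` (`R` a `B`-algebra of finite type), so is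
`R/(I₁ I₂)` -/
theorem ffa_mul_finite (I₁ I₂ : Ideal R) (h₁ : Module.Finite B (R ⧸ I₁))
    (h₂ : Module.Finite B (R ⧸ I₂)) : Module.Finite B (R ⧸ (I₁ * I₂)) := by
  haveI : Algebra.FiniteType B (R ⧸ (I₁ * I₂)) :=
    Algebra.FiniteType.of_surjective (Ideal.Quotient.mkₐ B (I₁ * I₂)) Ideal.Quotient.mk_surjective
  haveI : Algebra.IsIntegral B (R ⧸ (I₁ * I₂)) := by
    refine ⟨fun y => ?_⟩
    obtain ⟨x, rfl⟩ := Ideal.Quotient.mk_surjective y
    have key : ∀ (I : Ideal R), Module.Finite B (R ⧸ I) → ∃ p : B[X], p.Monic ∧ aeval x p ∈ I := by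
      intro I hI
      haveI := hI
      obtain ⟨p, hp, hpx⟩ := Algebra.IsIntegral.isIntegral (R := B) (Ideal.Quotient.mk I x)
      refine ⟨p, hp, ?_⟩
      rw [← Ideal.Quotient.eq_zero_iff_mem]
      have h3 : Ideal.Quotient.mk I (aeval x p) = aeval (Ideal.Quotient.mk I x) p := by
        have := Polynomial.aeval_algHom_apply (Ideal.Quotient.mkₐ B I) x p
        exact this.symm
      rw [h3]
      exact hpx
    obtain ⟨p₁, hp₁, hx₁⟩ := key I₁ h₁
    obtain ⟨p₂, hp₂, hx₂⟩ := key I₂ h₂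
    refine ⟨p₁ * p₂, hp₁.mul hp₂, ?_⟩
    have h3 : aeval (Ideal.Quotient.mk (I₁ * I₂) x) (p₁ * p₂) =
        Ideal.Quotient.mk (I₁ * I₂) (aeval x (p₁ * p₂)) := by
      have := Polynomial.aeval_algHom_apply (Ideal.Quotient.mkₐ B (I₁ * I₂)) x (p₁ * p₂)
      exact this
    show aeval (Ideal.Quotient.mk (I₁ * I₂) x) (p₁ * p₂) = 0
    rw [h3, Ideal.Quotient.eq_zero_iff_mem, map_mul]
    exact Ideal.mul_mem_mul hx₁ hx₂
  exact Algebra.IsIntegral.finite

end Finite

section Fibre

variable {O : Type} [CommRing O] {𝒜 : Type} [CommRing 𝒜] [Algebra O 𝒜]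
  {B : Type} [CommRing B] [Algebra O B] {k : Type} [Field k] [Algebra O k]
  (ξ : B →ₐ[O] k) (J : Ideal (B ⊗[O] 𝒜))

/-- the fibre of `(B ⊗ 𝒜)/J` at the point `ξ : B → k` is `(k ⊗ 𝒜)/(fibre J)` -/
theorem ffa_mul_fibre_equiv [Algebra B k] [IsScalarTower O B k]
    (hξ : ∀ b : B, algebraMap B k b = ξ b) :
    Nonempty ((k ⊗[B] ((B ⊗[O] 𝒜) ⧸ J)) ≃ₗ[k] ((k ⊗[O] 𝒜) ⧸ ffa_fibre ξ J)) := by
  let e1 := Algebra.TensorProduct.tensorQuotientEquiv (R := B) k (B ⊗[O] 𝒜) k J
  let e2 := Algebra.TensorProduct.cancelBaseChange O B k k 𝒜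
  have hpt : ∀ z : B ⊗[O] 𝒜, e2 ((1 : k) ⊗ₜ[B] z) = ffa_bc 𝒜 ξ z := by
    intro z
    induction z using TensorProduct.induction_on with
    | zero => simp
    | tmul b x =>
      rw [Algebra.TensorProduct.cancelBaseChange_tmul, Algebra.smul_def, mul_one, hξ, ffa_bc_tmul]
    | add z₁ z₂ h₁ h₂ => rw [TensorProduct.tmul_add, map_add, map_add, h₁, h₂]
  have h : ffa_fibre ξ J =
      (J.map (Algebra.TensorProduct.includeRight (R := B) (A := k) (B := B ⊗[O] 𝒜))).map
        (e2 : k ⊗[B] (B ⊗[O] 𝒜) →+* k ⊗[O] 𝒜) := by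
    unfold ffa_fibre
    apply le_antisymm
    · rw [Ideal.map_le_iff_le_comap]
      intro y hy
      rw [Ideal.mem_comap, ← hpt y]
      exact Ideal.mem_map_of_mem _ (Ideal.mem_map_of_mem _ hy)
    · rw [Ideal.map_le_iff_le_comap, Ideal.map_le_iff_le_comap]
      intro y hy
      rw [Ideal.mem_comap, Ideal.mem_comap]
      have := hpt y
      change e2 ((1 : k) ⊗ₜ[B] y) ∈ _
      rw [this]
      exact Ideal.mem_map_of_mem _ hy
  let e3 := Ideal.quotientEquivAlg _ (ffa_fibre ξ J) e2 h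
  exact ⟨e1.toLinearEquiv.trans e3.toLinearEquiv⟩

end Fibre

section Dedekind

variable {k : Type} [Field k] [IsAlgClosed k] {D : Type} [CommRing D] [Algebra k D]
  [IsDedekindDomain D] [Algebra.FiniteType k D]

/-- the residue fields of a Dedekind algebra of finite type over an algebraically closed field `k`
are `k` -/
theorem ffa_mul_res_surj (P : Ideal D) (hP : P.IsMaximal) :
    Function.Surjective (algebraMap k (D ⧸ P)) := by
  letI := Ideal.Quotient.field P
  haveI : Algebra.FiniteType k (D ⧸ P) :=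
    Algebra.FiniteType.of_surjective (Ideal.Quotient.mkₐ k P) Ideal.Quotient.mk_surjective
  haveI : Module.Finite k (D ⧸ P) := finite_of_finite_type_of_isJacobsonRing k (D ⧸ P)
  haveI : Algebra.IsIntegral k (D ⧸ P) := Algebra.IsIntegral.of_finite k (D ⧸ P)
  exact (IsAlgClosed.algebraMap_bijective_of_isIntegral (k := k) (K := D ⧸ P)).2

/-- an ideal of finite codimension of an infinite-dimensional algebra is nonzero -/
theorem ffa_mul_ne_bot (hinf : ¬ Module.Finite k D) (J : Ideal D)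
    (hJ : Module.Finite k (D ⧸ J)) : J ≠ ⊥ := by
  rintro rfl
  apply hinf
  exact Module.Finite.equiv ((AlgEquiv.quotientBot k D).toLinearEquiv)

/-- colength is additive on products, in a Dedekind algebra of finite type over an algebraically
closed field -/
theorem ffa_mul_colength (hinf : ¬ Module.Finite k D) (J₁ J₂ : Ideal D)
    (h₁ : Module.Finite k (D ⧸ J₁)) (h₂ : Module.Finite k (D ⧸ J₂)) :
    finrank k (D ⧸ (J₁ * J₂)) = finrank k (D ⧸ J₁) + finrank k (D ⧸ J₂) :=
  ffd_q_finrank_mul (fun P hP _ => ffa_mul_res_surj P hP) J₁ J₂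
    (ffa_mul_ne_bot hinf J₁ h₁) (ffa_mul_ne_bot hinf J₂ h₂)

end Dedekind

/-- a domain which is a finite-dimensional algebra over a field is a field -/
theorem ffa_mul_not_finite_of_not_isField {k D : Type*} [Field k] [CommRing D] [IsDomain D]
    [Algebra k D] (h : ¬ IsField D) : ¬ Module.Finite k D := by
  intro hfin
  haveI := hfin
  haveI : Algebra.IsIntegral k D := Algebra.IsIntegral.of_finite k D
  exact h (isField_of_isIntegral_of_isField' (Field.toIsField k))

section Lift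

variable {O : Type*} [CommRing O] [IsDomain O] [IsDiscreteValuationRing O]
  {𝒜 : Type*} [CommRing 𝒜] [Algebra O 𝒜]
  {κ : Type*} [Field κ] [Algebra O κ] {π : O}

/-- elements of `𝒜` whose images in `κ ⊗ 𝒜` are `κ`-linearly independent are `O`-linearly
independent (`𝒜` without `π`-torsion) -/
theorem ffa_mul_linearIndependent_of_res (hπ : Irreducible π)
    (hker : RingHom.ker (algebraMap O κ) = Ideal.span {π})
    (htf : ∀ a : 𝒜, π • a = 0 → a = 0) {n : ℕ} (a : Fin n → 𝒜)
    (ha : LinearIndependent κ fun i => (1 : κ) ⊗ₜ[O] a i) : LinearIndependent O a := by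
  classical
  rw [Fintype.linearIndependent_iff']
  set φ : (Fin n → O) →ₗ[O] 𝒜 :=
    LinearMap.lsum O (fun _ ↦ O) ℕ fun i ↦ LinearMap.id.smulRight (a i) with hφ
  have hφapp : ∀ o : Fin n → O, φ o = ∑ i, o i • a i := by
    intro o
    simp [hφ, LinearMap.lsum_apply]
  set N' := LinearMap.ker φ with hN'
  have hfg : N'.FG := IsNoetherian.noetherian N'
  have hle : N' ≤ (Ideal.span {π} : Ideal O) • N' := by
    intro o ho
    rw [hN', LinearMap.mem_ker, hφapp] at ho
    -- reduce modulo `π`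
    have h1 : ∑ i, algebraMap O κ (o i) • ((1 : κ) ⊗ₜ[O] a i) = 0 := by
      have h2 : ∀ i, algebraMap O κ (o i) • ((1 : κ) ⊗ₜ[O] a i) = (1 : κ) ⊗ₜ[O] (o i • a i) := by
        intro i
        rw [TensorProduct.smul_tmul', TensorProduct.tmul_smul, TensorProduct.smul_tmul',
          smul_eq_mul, mul_one, Algebra.smul_def, mul_one]
      rw [Finset.sum_congr rfl fun i _ => h2 i, ← TensorProduct.tmul_sum, ho,
        TensorProduct.tmul_zero]
    have h3 := Fintype.linearIndependent_iff.1 ha (fun i => algebraMap O κ (o i)) h1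
    have h4 : ∀ i, ∃ o' : O, o i = π * o' := by
      intro i
      have : o i ∈ RingHom.ker (algebraMap O κ) := h3 i
      rw [hker, Ideal.mem_span_singleton'] at this
      obtain ⟨c, hc⟩ := this
      exact ⟨c, by rw [← hc, mul_comm]⟩
    choose o' ho' using h4
    have h5 : o' ∈ N' := by
      rw [hN', LinearMap.mem_ker, hφapp]
      apply htf
      rw [Finset.smul_sum, ← ho]
      refine Finset.sum_congr rfl fun i _ => ?_
      rw [smul_smul, ← ho' i]
    have h6 : o = π • o' := by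
      funext i
      rw [Pi.smul_apply, smul_eq_mul, ho' i]
    rw [h6]
    exact Submodule.smul_mem_smul (Ideal.mem_span_singleton_self π) h5
  have hjac : (Ideal.span {π} : Ideal O) ≤ Ideal.jacobson ⊥ := by
    rw [IsLocalRing.jacobson_eq_maximalIdeal ⊥ bot_ne_top, ← hπ.maximalIdeal_eq]
  exact Submodule.eq_bot_of_le_smul_of_le_jacobson_bot _ _ hfg hle hjac

variable {Kb : Type*} [Field Kb] [Algebra O Kb]

/-- the generic fibre `Kb ⊗ 𝒜` is infinite-dimensional when the special fibre `κ ⊗ 𝒜` is -/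
theorem ffa_mul_not_finite_generic (hπ : Irreducible π)
    (hsurj : Function.Surjective (algebraMap O κ))
    (hker : RingHom.ker (algebraMap O κ) = Ideal.span {π})
    (hinj : Function.Injective (algebraMap O Kb))
    (htf : ∀ a : 𝒜, π • a = 0 → a = 0)
    (hκ : ¬ Module.Finite κ (κ ⊗[O] 𝒜)) : ¬ Module.Finite Kb (Kb ⊗[O] 𝒜) := by
  intro hfin
  haveI := hfin
  set n := finrank Kb (Kb ⊗[O] 𝒜) + 1 with hn
  -- `n` independent elements on the special fibre
  have hrank : (n : Cardinal) ≤ Module.rank κ (κ ⊗[O] 𝒜) := by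
    by_contra hlt
    rw [not_le] at hlt
    apply hκ
    exact Module.rank_lt_aleph0_iff.1 (lt_trans hlt Cardinal.natCast_lt_aleph0)
  obtain ⟨f, hf⟩ := exists_linearIndependent_of_le_rank hrank
  -- lift them to `𝒜`
  have hlift : ∀ y : κ ⊗[O] 𝒜, ∃ a : 𝒜, (1 : κ) ⊗ₜ[O] a = y := by
    intro y
    induction y using TensorProduct.induction_on with
    | zero => exact ⟨0, TensorProduct.tmul_zero _ _⟩
    | tmul c x =>
      obtain ⟨o, rfl⟩ := hsurj c
      refine ⟨o • x, ?_⟩
      rw [TensorProduct.tmul_smul, TensorProduct.smul_tmul', Algebra.smul_def, mul_one]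
    | add y₁ y₂ h₁ h₂ =>
      obtain ⟨a₁, rfl⟩ := h₁
      obtain ⟨a₂, rfl⟩ := h₂
      exact ⟨a₁ + a₂, TensorProduct.tmul_add _ _ _⟩
  choose a ha using fun i => hlift (f i)
  have hind : LinearIndependent κ fun i => (1 : κ) ⊗ₜ[O] a i := by
    have : (fun i => (1 : κ) ⊗ₜ[O] a i) = f := funext ha
    rw [this]
    exact hf
  have hO : LinearIndependent O a := ffa_mul_linearIndependent_of_res hπ hker htf a hind
  -- flatness of `Kb` over the Dedekind domain `O`
  haveI : FaithfulSMul O Kb := (faithfulSMul_iff_algebraMap_injective O Kb).2 hinj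
  haveI : Module.IsTorsionFree O Kb := inferInstance
  haveI : Module.Flat O Kb := inferInstance
  have hK : LinearIndependent Kb fun i => (1 : Kb) ⊗ₜ[O] a i :=
    Module.Flat.linearIndependent_one_tmul hO
  have := hK.fintype_card_le_finrank
  rw [Fintype.card_fin, hn] at this
  omega

end Lift


/-! ### the main theorem -/

section Main

variable {O : Type} [CommRing O] {𝒜 : Type} [CommRing 𝒜] [Algebra O 𝒜] [Algebra.FiniteType O 𝒜]
  {B : Type} [CommRing B] [Algebra O B]

/-- **the fibre of `(B ⊗ 𝒜)/(I₁ I₂)` at a point `ξ : B → k` with Dedekind fibre has dimension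
`d₁ + d₂`** -/
theorem ffa_mul_point {k : Type} [Field k] [IsAlgClosed k] [Algebra O k]
    (hded : IsDedekindDomain (k ⊗[O] 𝒜)) (hinf : ¬ Module.Finite k (k ⊗[O] 𝒜))
    (ξ : B →ₐ[O] k) (I₁ I₂ : Ideal (B ⊗[O] 𝒜)) (d₁ d₂ : ℕ)
    (h₁ : ffa_IsRelDiv O 𝒜 B I₁ d₁) (h₂ : ffa_IsRelDiv O 𝒜 B I₂ d₂)
    [Algebra B k] [IsScalarTower O B k] (hξ : ∀ b : B, algebraMap B k b = ξ b) :
    finrank k (k ⊗[B] ((B ⊗[O] 𝒜) ⧸ (I₁ * I₂))) = d₁ + d₂ := by
  haveI := hded
  obtain ⟨e⟩ := ffa_mul_fibre_equiv ξ (I₁ * I₂) hξ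
  rw [e.finrank_eq]
  have hfib : ffa_fibre ξ (I₁ * I₂) = ffa_fibre ξ I₁ * ffa_fibre ξ I₂ := Ideal.map_mul _ _ _
  rw [hfib]
  obtain ⟨⟨hf1, -, hr1⟩, -⟩ := ffa_seamBC O 𝒜 B k k ξ (AlgHom.id O k) I₁ d₁ h₁
  obtain ⟨⟨hf2, -, hr2⟩, -⟩ := ffa_seamBC O 𝒜 B k k ξ (AlgHom.id O k) I₂ d₂ h₂
  rw [ffa_mul_colength hinf _ _ hf1 hf2, hr1, hr2]

end Main

/-- **[A-MUL]** over a NONTRIVIAL nice base the product of two relative effective divisors is a
relative effective divisor, and the degrees add.  (For the zero ring `B` — a nice base with `Ξ = ∅`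
— the statement is false: `Module.finrank B M = 1` for every module over the zero ring, so every
ideal is a relative divisor of degree exactly `1`.) -/
theorem ffa_mul_main {O : Type} [CommRing O] [IsDomain O] [IsDiscreteValuationRing O]
    {𝒜 : Type} [CommRing 𝒜] [Algebra O 𝒜] {C : Type} [CommRing C] [Algebra O C] {π : O}
    {Kb : Type} [Field Kb] [IsAlgClosed Kb] [Algebra O Kb]
    {κ : Type} [Field κ] [IsAlgClosed κ] [Algebra O κ]
    {Λ : ℕ → Submodule O 𝒜} {lead : ∀ m, ↥(Λ m) →ₗ[O] C} {g n m0 c0 : ℕ}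
    (pkg : ff_IsPkg O 𝒜 C π Kb κ Λ lead g n m0 c0)
    {B : Type} [CommRing B] [Algebra O B] [hB : Nontrivial B] {Ξ : Type}
    {ξK : Ξ → B →ₐ[O] Kb} {ξκ : Ξ → B →ₐ[O] κ} (nice : ffa_IsNice O Kb κ B Ξ ξK ξκ)
    (I₁ I₂ : Ideal (B ⊗[O] 𝒜)) (d₁ d₂ : ℕ) (h₁ : ffa_IsRelDiv O 𝒜 B I₁ d₁)
    (h₂ : ffa_IsRelDiv O 𝒜 B I₂ d₂) : ffa_IsRelDiv O 𝒜 B (I₁ * I₂) (d₁ + d₂) := by
  haveI := pkg.ft
  -- finiteness
  have hfin : Module.Finite B ((B ⊗[O] 𝒜) ⧸ (I₁ * I₂)) := ffa_mul_finite I₁ I₂ h₁.1 h₂.1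
  -- the fibres are infinite-dimensional
  have hκ : ¬ Module.Finite κ (κ ⊗[O] 𝒜) := by
    haveI := pkg.dedκ
    exact ffa_mul_not_finite_of_not_isField pkg.notFieldκ
  have hK : ¬ Module.Finite Kb (Kb ⊗[O] 𝒜) :=
    ffa_mul_not_finite_generic pkg.irr pkg.res_surj pkg.res_ker pkg.inj pkg.tf hκ
  -- `B` is reduced and semilocal
  haveI : IsReduced B := ⟨fun b hb => nice.inj b fun t => (hb.map (ξK t)).eq_zero⟩
  haveI := nice.finΞ
  haveI : Finite (MaximalSpectrum B) := by
    have h : ∀ P : MaximalSpectrum B, ∃ t, P.asIdeal = RingHom.ker (ξκ t) :=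
      fun P => nice.max P.asIdeal P.isMaximal
    choose τ hτ using h
    refine Finite.of_injective τ fun P Q hPQ => ?_
    apply MaximalSpectrum.ext
    rw [hτ P, hτ Q, hPQ]
  haveI := hfin
  suffices hb : Nonempty (Basis (Fin (d₁ + d₂)) B ((B ⊗[O] 𝒜) ⧸ (I₁ * I₂))) by
    obtain ⟨b⟩ := hb
    exact ⟨hfin, Module.Free.of_basis b, by rw [Module.finrank_eq_card_basis b, Fintype.card_fin]⟩
  refine ffr_exists_basis'.{0, 0, 0} (B := B) (M := (B ⊗[O] 𝒜) ⧸ (I₁ * I₂)) (d₁ + d₂) ?_ ?_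
  · -- closed points
    intro 𝔪 h𝔪
    obtain ⟨t, ht⟩ := nice.max 𝔪 h𝔪
    letI iA : Algebra B κ := (ξκ t).toRingHom.toAlgebra
    haveI : IsScalarTower O B κ :=
      IsScalarTower.of_algebraMap_eq fun o => ((ξκ t).commutes o).symm
    refine ⟨κ, inferInstance, iA, ?_, ?_⟩
    · rw [ht]
      exact le_of_eq rfl
    · exact ffa_mul_point pkg.dedκ hκ (ξκ t) I₁ I₂ d₁ d₂ h₁ h₂ (fun _ => rfl)
  · -- generic points
    intro 𝔭 h𝔭
    haveI hprime : 𝔭.IsPrime := h𝔭.1.1
    haveI := Fintype.ofFinite Ξ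
    have hinf : (Finset.univ : Finset Ξ).inf (fun t => RingHom.ker (ξK t)) ≤ 𝔭 := by
      intro b hb
      rw [Submodule.mem_finsetInf] at hb
      have : b = 0 := nice.inj b fun t => hb t (Finset.mem_univ t)
      rw [this]
      exact 𝔭.zero_mem
    obtain ⟨t, -, ht⟩ := (Ideal.IsPrime.inf_le' hprime).1 hinf
    letI iA : Algebra B Kb := (ξK t).toRingHom.toAlgebra
    haveI : IsScalarTower O B Kb :=
      IsScalarTower.of_algebraMap_eq fun o => ((ξK t).commutes o).symm
    refine ⟨Kb, inferInstance, iA, ht, ?_⟩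
    exact ffa_mul_point pkg.dedK hK (ξK t) I₁ I₂ d₁ d₂ h₁ h₂ (fun _ => rfl)

end Fermat.Agent.FF
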