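/-
Project FF (S19), cell [ADD], leaf [A-MUL]: THE SEAM (helper25).
Imports FF/Add/Mul only.  `ffa_seamMUL : ffa_SeamMUL` (the amended seam with `[Nontrivial B]`) is
`ffa_mul_main` of FF/Add/Mul.lean, verbatim.
-/
import Mathlib
import Fermat.Agent.FF.Add.Mul

set_option autoImplicit false

namespace Fermat.Agent.FF

/-- **[A-MUL]** over a nice (nontrivial) base the product of two relative divisors is a relative
divisor, and the degrees add. -/
theorem ffa_seamMUL : ffa_SeamMUL := by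
  intro O _ _ _ 𝒜 _ _ C _ _ π Kb _ _ _ κ _ _ _ Λ lead g n m0 c0 pkg B _ _ _ Ξ ξK ξκ nice I₁ I₂ d₁ d₂
    h₁ h₂
  exact ffa_mul_main pkg nice I₁ I₂ d₁ d₂ h₁ h₂

end Fermat.Agent.FF
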