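/-
Project FF (S19), cell [ADD]: CLOSED.  Owner: helper27 (FF architect).

`ffa_seamADD : ff_SeamADD` — the abstract residuation theorem ("addition on `Sym^g` is regular over
`O`"), a closed theorem: `[A-ORD]` helper24, `[A-T]` helper22, `[A-BC]`/`[A-CHAR]` helper26,
`[A-MUL]` helper25, `[A-RES]` helper9's cell (helper13, helper18, helper24, helper25, helper26),
`[A-MAIN]` helper27.
-/
import Mathlib
import Fermat.Agent.FF.Add.Final
import Fermat.Agent.FF.Add.Res.Final

set_option autoImplicit false

namespace Fermat.Agent.FF

/-- **[ADD]** the abstract residuation theorem. -/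
theorem ffa_seamADD : ff_SeamADD :=
  ffa_seamADD_of_res ffa_seamRES

end Fermat.Agent.FF
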